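import Fermat.Agent.S55.H295.SplitTwin
import Fermat.Agent.S55.T.Spec2
import Fermat.Agent.S55.T.CoindCohTrivH572
import Fermat.Agent.S55.T.RecipH539

/-!
# `T5e`, `T5a`, `T5b`: splitting module, Tate's theorem, `H³` of a class module

* `splitModule : T.SplitModuleSpec`
* `tate : T.TateSpec`
* `tateH3 : T.TateH3Spec`
-/

set_option autoImplicit false
set_option linter.unusedSectionVars false

open CategoryTheory groupCohomology Rep Limits

namespace Fermat.Agent.S55.H295

open Fermat.Agent.S55.H783 Fermat.Agent.S55.T

noncomputable section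

variable {k G : Type} [CommRing k] [Group G]

/-- Cohomological triviality is invariant under isomorphism. -/
lemma IsCohTriv.of_iso [Finite G] {A B : Rep.{0} k G} (e : A ≅ B) (h : IsCohTriv A) :
    IsCohTriv B := fun H _ n =>
  IsZero.of_iso (h H n)
    ((tateCohomologyFunctor n).mapIso ((resFunctor H.subtype).mapIso e.symm))

/-- `P = Fun(G, k)` is cohomologically trivial. -/
lemma isCohTriv_augP [Fintype G] : IsCohTriv (augP k G) :=
  IsCohTriv.of_iso (funRepIsoCoind (k := k) (G := G) k).symm (T.H572.coindCohTriv k G _)

/-- The trivial module restricted to a subgroup is the trivial module. -/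
def resTrivialIso (H : Subgroup G) :
    res H.subtype (Rep.trivial k G k) ≅ Rep.trivial k H k :=
  Rep.mkIso (ρ := (Rep.trivial k G k).ρ.comp H.subtype) (σ := (Rep.trivial k H k).ρ)
    { toLinearEquiv := LinearEquiv.refl k k
      isIntertwining' := fun _ => rfl }

section ClassModule

variable [Fintype G] {C : Rep.{0} k G} (c : cocycles₂ C)

/-- Twin vanishing of the splitting module of a class module. -/
theorem twin_splitRep (hC : IsClassModule C (H2π C c))
    (hk : ∀ H : Subgroup G, IsZero (groupCohomology (Rep.trivial k H k) 1)) (H : Subgroup G) :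
    IsZero (groupCohomology (res H.subtype (splitRep c)) 1) ∧
      IsZero (groupCohomology (res H.subtype (splitRep c)) 2) := by
  obtain ⟨h1, hgen, hann, -⟩ := hC H
  have hk' : IsZero (groupCohomology (res H.subtype (Rep.trivial k G k)) 1) :=
    IsZero.of_iso (hk H) ((groupCohomology.functor k H 1).mapIso (resTrivialIso H))
  exact ⟨isZero_H1_splitRep c H h1 hann, isZero_H2_splitRep c H hk' hgen⟩

/-- The splitting module of a class module is cohomologically trivial. -/
theorem isCohTriv_splitRep (hC : IsClassModule C (H2π C c))
    (hk : ∀ H : Subgroup G, IsZero (groupCohomology (Rep.trivial k H k) 1)) :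
    IsCohTriv (splitRep c) :=
  twinVanishing k G (splitRep c) (twin_splitRep c hC hk)

end ClassModule

/-- Every class in `H²` is represented by a 2-cocycle. -/
lemma exists_cocycle_of_H2 (C : Rep.{0} k G) (γ : groupCohomology C 2) :
    ∃ c : cocycles₂ C, H2π C c = γ := by
  induction γ using H2_induction_on with
  | h c => exact ⟨c, rfl⟩

/-- **T5e.**  The splitting module of a class module over `ℤ`. -/
theorem splitModule : SplitModuleSpec := by
  intro G _ _ C γ hC
  classical
  let _ : Fintype G := Fintype.ofFinite G
  obtain ⟨c, rfl⟩ := exists_cocycle_of_H2 C γ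
  refine ⟨splitRep c, augI ℤ G, augP ℤ G, spliti c, splitπ c, augj ℤ G, augε ℤ G,
    spliti_comp_splitπ c, augj_comp_augε ℤ G, splitSES_shortExact c, augSES_shortExact ℤ G,
    isCohTriv_splitRep c hC (fun H => T.H539.h1TrivInt H), isCohTriv_augP⟩

end

end Fermat.Agent.S55.H295
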