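import Fermat.Agent.S55.H295.SplitSpecs

/-!
# `T5a`, `T5b`: Tate's theorem and `H³` of a class module

* `tate : T.TateSpec` — for a class module `(C, γ)` (and `H¹(H, k) = 0` for all `H ≤ G`):
  `Ĥⁿ(H, k) ≅ Ĥⁿ⁺²(H, C)` for all `n : ℤ`, `H ≤ G`;
* `tateH3 : T.TateH3Spec` — `H³(H, C) = 0` for a class module over `ℤ`;
* `tate_iso_explicit` — the isomorphism is the composite of the two connecting homomorphisms of
  `0 → I → P → k → 0` and `0 → C → C(c) → I → 0`.
-/

set_option autoImplicit false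
set_option linter.unusedSectionVars false

open CategoryTheory groupCohomology Rep Limits

namespace Fermat.Agent.S55.H295

open Fermat.Agent.S55.H783 Fermat.Agent.S55.T

noncomputable section

variable {k G : Type} [CommRing k] [Group G] [Fintype G]

/-- The first shifting isomorphism `Ĥⁿ(H, k) ≅ Ĥⁿ⁺¹(H, I)`. -/
def tateAugIso (H : Subgroup G) [Fintype H] (n : ℤ) :
    tateCohomology (res H.subtype (Rep.trivial k G k)) n ≅
      tateCohomology (res H.subtype (augI k G)) (n + 1) :=
  @asIso _ _ _ _ (TateCohomology.δ (augSESres_shortExact (k := k) H) n)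
    (ShortComplex.SnakeInput.isIso_δ _ (isCohTriv_augP (k := k) (G := G) H n)
      (isCohTriv_augP (k := k) (G := G) H (n + 1)))

/-- The second shifting isomorphism `Ĥⁿ(H, I) ≅ Ĥⁿ⁺¹(H, C)` for a class module `(C, [c])`. -/
def tateSplitIso {C : Rep.{0} k G} (c : cocycles₂ C) (hC : IsClassModule C (H2π C c))
    (hk : ∀ H : Subgroup G, IsZero (groupCohomology (Rep.trivial k H k) 1))
    (H : Subgroup G) [Fintype H] (n : ℤ) :
    tateCohomology (res H.subtype (augI k G)) n ≅
      tateCohomology (res H.subtype C) (n + 1) :=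
  @asIso _ _ _ _ (TateCohomology.δ (splitSESres_shortExact c H) n)
    (ShortComplex.SnakeInput.isIso_δ _ (isCohTriv_splitRep c hC hk H n)
      (isCohTriv_splitRep c hC hk H (n + 1)))

/-- Tate's isomorphism `Ĥⁿ(H, k) ≅ Ĥⁿ⁺²(H, C)` for a class module `(C, [c])`. -/
def tateIso {C : Rep.{0} k G} (c : cocycles₂ C) (hC : IsClassModule C (H2π C c))
    (hk : ∀ H : Subgroup G, IsZero (groupCohomology (Rep.trivial k H k) 1))
    (H : Subgroup G) [Fintype H] (n : ℤ) :
    tateCohomology (Rep.trivial k H k) n ≅ tateCohomology (res H.subtype C) (n + 2) :=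
  (tateCohomologyFunctor n).mapIso (resTrivialIso H).symm ≪≫ tateAugIso H n ≪≫
    tateSplitIso c hC hk H (n + 1) ≪≫
    eqToIso (by rw [show n + 1 + 1 = n + 2 by ring])

omit [Fintype G] in
/-- **T5a.**  Tate's theorem. -/
theorem tate : TateSpec := by
  intro k G _ _ _ C γ hk hC H _ n
  classical
  let _ : Fintype G := Fintype.ofFinite G
  obtain ⟨c, rfl⟩ := exists_cocycle_of_H2 C γ
  exact ⟨tateIso c hC hk H n⟩

omit [Fintype G] in
/-- **T5b.**  `H³` of a class module over `ℤ` vanishes. -/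
theorem tateH3 : TateH3Spec := by
  intro G _ _ C γ hC H
  classical
  let _ : Fintype H := Fintype.ofFinite H
  obtain ⟨e⟩ := tate ℤ G C γ (fun K => T.H539.h1TrivInt K) hC H 1
  have h1 : IsZero (tateCohomology (Rep.trivial ℤ H ℤ) 1) :=
    (isZero_tate_iff_group (Rep.trivial ℤ H ℤ) 1).2 (T.H539.h1TrivInt H)
  have h3 : IsZero (tateCohomology (resSub C H) (1 + 2)) := IsZero.of_iso h1 e.symm
  exact (isZero_tate_iff_group (resSub C H) 3).1 h3

end

end Fermat.Agent.S55.H295
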