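import Fermat.Agent.S55.H295.CohTriv

/-!
# `T4a`: the twin-vanishing criterion for cohomological triviality

`twinVanishing : T.TwinVanishingSpec`.
-/

set_option autoImplicit false

open CategoryTheory groupCohomology Rep Limits

universe u

namespace Fermat.Agent.S55.H295

noncomputable section

/-- Universe-polymorphic form of the twin-vanishing criterion: if `H¹(H, A) = H²(H, A) = 0` for
all subgroups `H ≤ G` of the finite group `G`, then `Ĥⁿ(H, A) = 0` for all `n : ℤ` and all
`H ≤ G`. -/
theorem isZero_tate_of_twin {k G : Type u} [CommRing k] [Group G] [Finite G] (A : Rep.{u} k G)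
    (h : ∀ H : Subgroup G, IsZero (groupCohomology (Rep.res H.subtype A) 1) ∧
      IsZero (groupCohomology (Rep.res H.subtype A) 2))
    (H : Subgroup G) [Fintype H] (n : ℤ) :
    IsZero (tateCohomology (Rep.res H.subtype A) n) := by
  classical
  let _ : Fintype G := Fintype.ofFinite G
  apply isZero_tate_of_tateTwin_one A _ H n
  intro K _
  exact ⟨(isZero_tate_iff_group _ 1).2 (h K).1, (isZero_tate_iff_group _ 2).2 (h K).2⟩

/-- Group cohomology form: under twin vanishing, `Hⁿ(H, A) = 0` for all `n ≥ 1`, `H ≤ G`. -/
theorem isZero_groupCohomology_of_twin {k G : Type u} [CommRing k] [Group G] [Finite G]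
    (A : Rep.{u} k G)
    (h : ∀ H : Subgroup G, IsZero (groupCohomology (Rep.res H.subtype A) 1) ∧
      IsZero (groupCohomology (Rep.res H.subtype A) 2))
    (H : Subgroup G) (n : ℕ) :
    IsZero (groupCohomology (Rep.res H.subtype A) (n + 1)) := by
  classical
  let _ : Fintype H := Fintype.ofFinite H
  exact (isZero_tate_iff_group _ (n + 1)).1 (isZero_tate_of_twin A h H _)

/-- **T4a.** Twin vanishing implies cohomological triviality. -/
theorem twinVanishing : T.TwinVanishingSpec := by
  intro k G _ _ _ A h H _ n
  exact isZero_tate_of_twin A h H n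

end

end Fermat.Agent.S55.H295
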