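import Mathlib

/-!
# Cohomological triviality, part 0: vanishing propagation

Elementary consequences of the long exact sequences of group cohomology and Tate cohomology
("if two out of three neighbours vanish ..."), transport of vanishing along injective group
homomorphisms, and concrete criteria for short exactness in `Rep k G`.
-/

set_option autoImplicit false

open CategoryTheory groupCohomology Rep Limits

universe u

namespace Fermat.Agent.S55.H295

noncomputable section

section LES

variable {k G : Type u} [CommRing k] [Group G]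
  {X : ShortComplex (Rep.{u} k G)}

/-- `Hⁿ(X₁) = 0` and `Hⁿ(X₃) = 0` imply `Hⁿ(X₂) = 0`. -/
theorem isZero_H_mid (hX : X.ShortExact) (n : ℕ)
    (h1 : IsZero (groupCohomology X.X₁ n)) (h3 : IsZero (groupCohomology X.X₃ n)) :
    IsZero (groupCohomology X.X₂ n) :=
  (mapShortComplex₂_exact hX n).isZero_of_both_isZero h1 h3

/-- `Hⁿ(X₂) = 0` and `Hⁿ⁺¹(X₁) = 0` imply `Hⁿ(X₃) = 0`. -/
theorem isZero_H_right (hX : X.ShortExact) (n : ℕ)
    (h2 : IsZero (groupCohomology X.X₂ n)) (h1 : IsZero (groupCohomology X.X₁ (n + 1))) :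
    IsZero (groupCohomology X.X₃ n) :=
  (mapShortComplex₃_exact hX (i := n) rfl).isZero_of_both_isZero h2 h1

/-- `Hⁿ(X₃) = 0` and `Hⁿ⁺¹(X₂) = 0` imply `Hⁿ⁺¹(X₁) = 0`. -/
theorem isZero_H_left (hX : X.ShortExact) (n : ℕ)
    (h3 : IsZero (groupCohomology X.X₃ n)) (h2 : IsZero (groupCohomology X.X₂ (n + 1))) :
    IsZero (groupCohomology X.X₁ (n + 1)) :=
  (mapShortComplex₁_exact hX (i := n) rfl).isZero_of_both_isZero h3 h2

end LES

section TateLES

variable {k G : Type u} [CommRing k] [Group G] [Fintype G]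
  {X : ShortComplex (Rep.{u} k G)}

/-- Tate version: `Ĥⁿ(X₁) = 0` and `Ĥⁿ(X₃) = 0` imply `Ĥⁿ(X₂) = 0`. -/
theorem isZero_tate_mid (hX : X.ShortExact) (n : ℤ)
    (h1 : IsZero (tateCohomology X.X₁ n)) (h3 : IsZero (tateCohomology X.X₃ n)) :
    IsZero (tateCohomology X.X₂ n) :=
  ((TateCohomology.map_tateComplexFunctor_shortExact hX).homology_exact₂ n).isZero_of_both_isZero
    h1 h3

/-- Tate version: `Ĥⁿ(X₂) = 0` and `Ĥⁿ⁺¹(X₁) = 0` imply `Ĥⁿ(X₃) = 0`. -/
theorem isZero_tate_right (hX : X.ShortExact) (n : ℤ)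
    (h2 : IsZero (tateCohomology X.X₂ n)) (h1 : IsZero (tateCohomology X.X₁ (n + 1))) :
    IsZero (tateCohomology X.X₃ n) :=
  (TateCohomology.exact₃ hX n).isZero_of_both_isZero h2 h1

/-- Tate version: `Ĥⁿ(X₃) = 0` and `Ĥⁿ⁺¹(X₂) = 0` imply `Ĥⁿ⁺¹(X₁) = 0`. -/
theorem isZero_tate_left (hX : X.ShortExact) (n : ℤ)
    (h3 : IsZero (tateCohomology X.X₃ n)) (h2 : IsZero (tateCohomology X.X₂ (n + 1))) :
    IsZero (tateCohomology X.X₁ (n + 1)) :=
  (TateCohomology.exact₁ hX n).isZero_of_both_isZero h3 h2

end TateLES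

section ShortExact

variable {k G : Type u} [CommRing k] [Group G]

/-- Concrete criterion for short exactness in `Rep k G`. -/
theorem rep_shortExact_of (X : ShortComplex (Rep.{u} k G))
    (h1 : Function.Injective X.f.hom)
    (h2 : ∀ x : X.X₂, X.g.hom x = 0 → ∃ y : X.X₁, X.f.hom y = x)
    (h3 : Function.Surjective X.g.hom) : X.ShortExact where
  exact := by
    rw [← ShortComplex.exact_map_iff_of_faithful X (forget₂ (Rep.{u} k G) (ModuleCat.{u} k)),
      ShortComplex.moduleCat_exact_iff]
    exact h2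
  mono_f := (Rep.mono_iff_injective _).2 h1
  epi_g := (Rep.epi_iff_surjective _).2 h3

theorem rep_shortExact_inj {X : ShortComplex (Rep.{u} k G)} (hX : X.ShortExact) :
    Function.Injective X.f.hom :=
  (Rep.mono_iff_injective _).1 hX.mono_f

theorem rep_shortExact_surj {X : ShortComplex (Rep.{u} k G)} (hX : X.ShortExact) :
    Function.Surjective X.g.hom :=
  (Rep.epi_iff_surjective _).1 hX.epi_g

theorem rep_shortExact_exact {X : ShortComplex (Rep.{u} k G)} (hX : X.ShortExact)
    (x : X.X₂) (hx : X.g.hom x = 0) : ∃ y : X.X₁, X.f.hom y = x := by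
  have := hX.exact
  rw [← ShortComplex.exact_map_iff_of_faithful X (forget₂ (Rep.{u} k G) (ModuleCat.{u} k)),
    ShortComplex.moduleCat_exact_iff] at this
  exact this x hx

end ShortExact

section Transport

variable {k G H : Type u} [CommRing k] [Group G] [Group H]

/-- Cohomology of the restriction along an injective homomorphism is the cohomology of the
restriction to its range. -/
def resRangeIso (f : H →* G) (hf : Function.Injective f) (A : Rep.{u} k G) (n : ℕ) :
    groupCohomology (res f A) n ≅ groupCohomology (res f.range.subtype A) n :=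
  groupCohomology.mapIso (A := res f.range.subtype A) (B := res f A)
    (MonoidHom.ofInjective hf) (LinearEquiv.refl k A.V) (fun _ => rfl) n

theorem isZero_res_of_range (f : H →* G) (hf : Function.Injective f) (A : Rep.{u} k G) (n : ℕ)
    (h : IsZero (groupCohomology (res f.range.subtype A) n)) :
    IsZero (groupCohomology (res f A) n) :=
  IsZero.of_iso h (resRangeIso f hf A n)

end Transport

end

end Fermat.Agent.S55.H295
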