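import Fermat.Agent.S55.H295.InfRes
import Fermat.Agent.S55.H783.ResCor

/-!
# Cohomological triviality, part 4: the core of the twin-vanishing criterion

Let `G` be a finite group and `A : Rep k G`.  Write `TwinVanish A d` for
"`H^d(H, A) = H^{d+1}(H, A) = 0` for every injective `f : H →* G`" (hom-form).

* `isZero_H3_of_twinVanish` : `TwinVanish A 1 → H³(G, A) = 0`;
* `isZero_H1_of_twinVanish` : `TwinVanish A 2 → H¹(G, A) = 0`.

Proof: Sylow reduction (`helper783`), induction on the order of a `p`-group through a normal
subgroup of index `p`, higher inflation–restriction (`InfRes.lean`) and periodicity of the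
cohomology of cyclic groups (Mathlib).
-/

set_option autoImplicit false

open CategoryTheory groupCohomology Rep Limits

universe u

namespace Fermat.Agent.S55.H295

noncomputable section

variable {k : Type u} [CommRing k]

/-- Hom-form twin vanishing: `H^d` and `H^{d+1}` vanish on every "subgroup" `f : H ↪ G`. -/
def TwinVanish {G : Type u} [Group G] (A : Rep.{u} k G) (d : ℕ) : Prop :=
  ∀ (H : Type u) [Group H] (f : H →* G), Function.Injective f →
    IsZero (groupCohomology (res f A) d) ∧ IsZero (groupCohomology (res f A) (d + 1))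

lemma TwinVanish.res {G : Type u} [Group G] {A : Rep.{u} k G} {d : ℕ} (h : TwinVanish A d)
    {H : Type u} [Group H] (f : H →* G) (hf : Function.Injective f) :
    TwinVanish (res f A) d :=
  fun K _ g hg => h K (f.comp g) (hf.comp hg)

lemma TwinVanish.self {G : Type u} [Group G] {A : Rep.{u} k G} {d : ℕ} (h : TwinVanish A d) :
    IsZero (groupCohomology A d) ∧ IsZero (groupCohomology A (d + 1)) :=
  h G (MonoidHom.id G) Function.injective_id

/-- Subgroup-form twin vanishing implies hom-form twin vanishing. -/
lemma twinVanish_of_subgroups {G : Type u} [Group G] (A : Rep.{u} k G) (d : ℕ)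
    (h : ∀ H : Subgroup G, IsZero (groupCohomology (Rep.res H.subtype A) d) ∧
      IsZero (groupCohomology (Rep.res H.subtype A) (d + 1))) :
    TwinVanish A d :=
  fun _ _ f hf => ⟨isZero_res_of_range f hf A d (h f.range).1,
    isZero_res_of_range f hf A (d + 1) (h f.range).2⟩

/-- Periodicity for finite cyclic groups: `H¹ = 0 ↔ H³ = 0`. -/
theorem isZero_H1_iff_H3_of_isCyclic {Q : Type u} [Group Q] [Finite Q] [IsCyclic Q]
    (B : Rep.{u} k Q) :
    IsZero (groupCohomology B 1) ↔ IsZero (groupCohomology B 3) := by
  classical
  obtain ⟨g, hg⟩ := IsCyclic.exists_generator (α := Q)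
  let _ : Fintype Q := Fintype.ofFinite Q
  let _ : CommGroup Q := IsCyclic.commGroup
  have e1 := Rep.FiniteCyclicGroup.groupCohomologyIsoOdd B g hg 1 (by decide)
  have e3 := Rep.FiniteCyclicGroup.groupCohomologyIsoOdd B g hg 3 (by decide)
  exact (e1 ≪≫ e3.symm).isZero_iff

/-- A nontrivial finite `p`-group has a normal subgroup of index `p`. -/
theorem exists_normal_index_prime {p : ℕ} [hp : Fact p.Prime] {G : Type u} [Group G] [Finite G]
    (hG : IsPGroup p G) (hnt : Nontrivial G) : ∃ S : Subgroup G, S.Normal ∧ S.index = p := by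
  obtain ⟨n, hn⟩ := (IsPGroup.iff_card (p := p) (G := G)).1 hG
  have hn0 : n ≠ 0 := by
    rintro rfl
    rw [pow_zero] at hn
    have := Finite.one_lt_card (α := G)
    omega
  obtain ⟨m, rfl⟩ := Nat.exists_eq_succ_of_ne_zero hn0
  obtain ⟨K, hK⟩ := Sylow.exists_subgroup_card_pow_prime (G := G) p (n := m)
    (by rw [hn]; exact pow_dvd_pow p (Nat.le_succ m))
  have hidx : K.index = p := by
    have h := K.card_mul_index
    rw [hK, hn, pow_succ] at h
    exact Nat.eq_of_mul_eq_mul_left (pow_pos hp.out.pos m) h
  refine ⟨K, ?_, hidx⟩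
  apply Subgroup.normal_of_index_eq_minFac_card
  rw [hidx, hn, Nat.Prime.pow_minFac hp.out (Nat.succ_ne_zero m)]

/-- The data used in the induction step: a normal subgroup of index `p`, of smaller order,
with cyclic quotient. -/
theorem exists_normal_step {p : ℕ} [hp : Fact p.Prime] {G : Type u} [Group G] [Finite G]
    (hG : IsPGroup p G) (hnt : Nontrivial G) :
    ∃ S : Subgroup G, ∃ _ : S.Normal, Nat.card S < Nat.card G ∧ IsCyclic (G ⧸ S) := by
  obtain ⟨S, hS, hidx⟩ := exists_normal_index_prime hG hnt
  refine ⟨S, hS, ?_, ?_⟩
  · have h := S.card_mul_index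
    rw [hidx] at h
    have hpos : 0 < Nat.card S := Nat.card_pos
    have h2 : 2 ≤ p := hp.out.two_le
    nlinarith
  · have hcard : Nat.card (G ⧸ S) = p := by rw [← Subgroup.index_eq_card, hidx]
    exact isCyclic_of_prime_card hcard

/-- Core (a) for `p`-groups. -/
theorem isZero_H3_of_pGroup (p : ℕ) [hp : Fact p.Prime] :
    ∀ (n : ℕ) (G : Type u) [Group G] [Finite G], Nat.card G ≤ n → IsPGroup p G →
      ∀ A : Rep.{u} k G, TwinVanish A 1 → IsZero (groupCohomology A 3) := by
  intro n
  induction n with
  | zero =>
    intro G _ _ hcard _ A _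
    have : 0 < Nat.card G := Nat.card_pos
    omega
  | succ n ih =>
    intro G _ _ hcard hG A hA
    rcases subsingleton_or_nontrivial G with hs | hnt
    · exact isZero_groupCohomology_succ_of_subsingleton A 2
    · obtain ⟨S, hSn, hlt, hcyc⟩ := exists_normal_step hG hnt
      have hS12 := hA S S.subtype S.subtype_injective
      have hS3 : IsZero (groupCohomology (res S.subtype A) 3) :=
        ih S (by omega) (hG.to_subgroup S) (res S.subtype A) (hA.res S.subtype S.subtype_injective)
      have hG1 : IsZero (groupCohomology A 1) := hA.self.1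
      have hQ1 : IsZero (groupCohomology (A.quotientToInvariants S) 1) :=
        isZero_H_quot_of S 0 A (fun i hi => absurd hi (Nat.not_lt_zero i)) hG1
      have hQ3 : IsZero (groupCohomology (A.quotientToInvariants S) 3) :=
        (isZero_H1_iff_H3_of_isCyclic _).1 hQ1
      refine isZero_H_of_quot S 2 A (fun i hi => ?_) hQ3
      interval_cases i
      · exact hS12.1
      · exact hS12.2
      · exact hS3

/-- Core (b') for `p`-groups. -/
theorem isZero_H1_of_pGroup (p : ℕ) [hp : Fact p.Prime] :
    ∀ (n : ℕ) (G : Type u) [Group G] [Finite G], Nat.card G ≤ n → IsPGroup p G →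
      ∀ A : Rep.{u} k G, TwinVanish A 2 → IsZero (groupCohomology A 1) := by
  intro n
  induction n with
  | zero =>
    intro G _ _ hcard _ A _
    have : 0 < Nat.card G := Nat.card_pos
    omega
  | succ n ih =>
    intro G _ _ hcard hG A hA
    rcases subsingleton_or_nontrivial G with hs | hnt
    · exact isZero_groupCohomology_succ_of_subsingleton A 0
    · obtain ⟨S, hSn, hlt, hcyc⟩ := exists_normal_step hG hnt
      have hS23 := hA S S.subtype S.subtype_injective
      have hS1 : IsZero (groupCohomology (res S.subtype A) 1) :=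
        ih S (by omega) (hG.to_subgroup S) (res S.subtype A) (hA.res S.subtype S.subtype_injective)
      have hG3 : IsZero (groupCohomology A 3) := hA.self.2
      have hQ3 : IsZero (groupCohomology (A.quotientToInvariants S) 3) := by
        refine isZero_H_quot_of S 2 A (fun i hi => ?_) hG3
        interval_cases i
        · exact hS1
        · exact hS23.1
      have hQ1 : IsZero (groupCohomology (A.quotientToInvariants S) 1) :=
        (isZero_H1_iff_H3_of_isCyclic _).2 hQ3
      refine isZero_H_of_quot S 0 A (fun i hi => ?_) hQ1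
      interval_cases i
      exact hS1

section Sylow

variable {G : Type u} [Group G] [Finite G]

/-- Core (a): twin vanishing in degrees `1, 2` implies `H³(G, A) = 0`. -/
theorem isZero_H3_of_twinVanish (A : Rep.{u} k G) (hA : TwinVanish A 1) :
    IsZero (groupCohomology A 3) := by
  have key : ∀ x : groupCohomology A 3, x = 0 := by
    intro x
    apply Fermat.Agent.S55.H783.eq_zero_of_forall_sylow A 2 x
    intro p _ P
    have hz : IsZero (groupCohomology (res (P : Subgroup G).subtype A) 3) :=
      isZero_H3_of_pGroup p (Nat.card P) P le_rfl P.isPGroup' _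
        (hA.res _ (Subgroup.subtype_injective _))
    exact (ModuleCat.subsingleton_of_isZero hz).elim _ _
  have : Subsingleton (groupCohomology A 3) := ⟨fun x y => by rw [key x, key y]⟩
  exact ModuleCat.isZero_of_subsingleton _

/-- Core (b'): twin vanishing in degrees `2, 3` implies `H¹(G, A) = 0`. -/
theorem isZero_H1_of_twinVanish (A : Rep.{u} k G) (hA : TwinVanish A 2) :
    IsZero (groupCohomology A 1) := by
  have key : ∀ x : groupCohomology A 1, x = 0 := by
    intro x
    apply Fermat.Agent.S55.H783.eq_zero_of_forall_sylow A 0 x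
    intro p _ P
    have hz : IsZero (groupCohomology (res (P : Subgroup G).subtype A) 1) :=
      isZero_H1_of_pGroup p (Nat.card P) P le_rfl P.isPGroup' _
        (hA.res _ (Subgroup.subtype_injective _))
    exact (ModuleCat.subsingleton_of_isZero hz).elim _ _
  have : Subsingleton (groupCohomology A 1) := ⟨fun x y => by rw [key x, key y]⟩
  exact ModuleCat.isZero_of_subsingleton _

end Sylow

end

end Fermat.Agent.S55.H295
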