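import Fermat.Agent.S55.H295.Core
import Fermat.Agent.S55.H572.DimShift
import Fermat.Agent.S55.T.Spec

/-!
# Cohomological triviality, part 5: the twin-vanishing criterion (`T4a`)

`twinVanishing : T.TwinVanishingSpec`: if `H¹(H, A) = H²(H, A) = 0` for every subgroup `H` of the
finite group `G`, then `A` is cohomologically trivial, i.e. `Ĥⁿ(H, A) = 0` for all `n : ℤ` and all
`H ≤ G`.

More generally (`isCohTriv_of_tate_twin`), vanishing of `Ĥ^q` and `Ĥ^{q+1}` on all subgroups for
a single `q : ℤ` suffices.
-/

set_option autoImplicit false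

open CategoryTheory groupCohomology Rep Limits

universe u

namespace Fermat.Agent.S55.H295

noncomputable section

variable {k G : Type u} [CommRing k] [Group G]

/-- Tate cohomology in positive degrees is group cohomology (vanishing form). -/
lemma isZero_tate_iff_group {H : Type u} [Group H] [Fintype H] (M : Rep.{u} k H) (n : ℕ)
    [NeZero n] : IsZero (tateCohomology M (n : ℤ)) ↔ IsZero (groupCohomology M n) :=
  ((TateCohomology.isoGroupCohomology n).app M).isZero_iff

/-- Twin vanishing of Tate cohomology in degrees `q, q + 1` on all subgroups. -/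
def TateTwin (A : Rep.{u} k G) (q : ℤ) : Prop :=
  ∀ (H : Subgroup G) [Fintype H],
    IsZero (tateCohomology (res H.subtype A) q) ∧ IsZero (tateCohomology (res H.subtype A) (q + 1))

lemma TateTwin.cast {A : Rep.{u} k G} {q q' : ℤ} (h : TateTwin A q) (e : q = q') :
    TateTwin A q' := e ▸ h

lemma isZero_tate_up_iff (H : Subgroup G) [Fintype H] (A : Rep.{u} k G) (n m : ℤ)
    (h : n + 1 = m) :
    IsZero (tateCohomology (res H.subtype (H572.up A)) n) ↔
      IsZero (tateCohomology (res H.subtype A) m) := by
  subst h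
  exact (H572.tateUpIso H A n).isZero_iff

lemma isZero_tate_down_iff [Fintype G] (H : Subgroup G) [Fintype H] (A : Rep.{u} k G) (n m : ℤ)
    (h : n + 1 = m) :
    IsZero (tateCohomology (res H.subtype A) n) ↔
      IsZero (tateCohomology (res H.subtype (H572.down A)) m) := by
  subst h
  exact (H572.tateDownIso H A n).isZero_iff

lemma TateTwin.up {A : Rep.{u} k G} {q : ℤ} (h : TateTwin A (q + 1)) :
    TateTwin (H572.up A) q := fun H _ =>
  ⟨(isZero_tate_up_iff H A q (q + 1) rfl).2 (h H).1,
    (isZero_tate_up_iff H A (q + 1) (q + 1 + 1) rfl).2 (h H).2⟩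

lemma TateTwin.of_up {A : Rep.{u} k G} {q : ℤ} (h : TateTwin (H572.up A) q) :
    TateTwin A (q + 1) := fun H _ =>
  ⟨(isZero_tate_up_iff H A q (q + 1) rfl).1 (h H).1,
    (isZero_tate_up_iff H A (q + 1) (q + 1 + 1) rfl).1 (h H).2⟩

lemma TateTwin.down [Fintype G] {A : Rep.{u} k G} {q : ℤ} (h : TateTwin A q) :
    TateTwin (H572.down A) (q + 1) := fun H _ =>
  ⟨(isZero_tate_down_iff H A q (q + 1) rfl).1 (h H).1,
    (isZero_tate_down_iff H A (q + 1) (q + 1 + 1) rfl).1 (h H).2⟩

lemma TateTwin.of_down [Fintype G] {A : Rep.{u} k G} {q : ℤ}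
    (h : TateTwin (H572.down A) (q + 1)) : TateTwin A q := fun H _ =>
  ⟨(isZero_tate_down_iff H A q (q + 1) rfl).2 (h H).1,
    (isZero_tate_down_iff H A (q + 1) (q + 1 + 1) rfl).2 (h H).2⟩

section Finite

variable [Finite G]

/-- From Tate twin vanishing in degrees `d, d + 1 ≥ 1` to hom-form twin vanishing. -/
lemma TateTwin.twinVanish {A : Rep.{u} k G} (d : ℕ) [NeZero d]
    (h : TateTwin A (d : ℤ)) : TwinVanish A d := by
  classical
  apply twinVanish_of_subgroups
  intro H
  let _ : Fintype H := Fintype.ofFinite H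
  exact ⟨(isZero_tate_iff_group _ d).1 (h H).1, (isZero_tate_iff_group _ (d + 1)).1 (h H).2⟩

/-- Key step upward: Tate twin vanishing in degrees `1, 2` gives vanishing in degree `3`. -/
lemma TateTwin.three {A : Rep.{u} k G} (h : TateTwin A 1) (H : Subgroup G) [Fintype H] :
    IsZero (tateCohomology (res H.subtype A) 3) := by
  have h1 : TwinVanish A 1 := TateTwin.twinVanish 1 h
  have h3 := isZero_H3_of_twinVanish (res H.subtype A) (h1.res H.subtype H.subtype_injective)
  exact (isZero_tate_iff_group (res H.subtype A) 3).2 h3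

/-- Key step downward: Tate twin vanishing in degrees `2, 3` gives vanishing in degree `1`. -/
lemma TateTwin.one {A : Rep.{u} k G} (h : TateTwin A 2) (H : Subgroup G) [Fintype H] :
    IsZero (tateCohomology (res H.subtype A) 1) := by
  have h1 : TwinVanish A 2 := TateTwin.twinVanish 2 h
  have h3 := isZero_H1_of_twinVanish (res H.subtype A) (h1.res H.subtype H.subtype_injective)
  exact (isZero_tate_iff_group (res H.subtype A) 1).2 h3

lemma TateTwin.succ_of_one {A : Rep.{u} k G} (h : TateTwin A 1) : TateTwin A 2 :=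
  fun H _ => ⟨(h H).2, h.three H⟩

lemma TateTwin.pred_of_two {A : Rep.{u} k G} (h : TateTwin A 2) : TateTwin A 1 :=
  fun H _ => ⟨h.one H, (h H).1⟩

/-- Moving the window up by one, at an arbitrary position `1 + m`, `m ≥ 0`. -/
lemma TateTwin.succ_nat : ∀ (m : ℕ) (A : Rep.{u} k G), TateTwin A (1 + m) →
    TateTwin A (1 + m + 1) := by
  intro m
  induction m with
  | zero =>
    intro A h
    have h' : TateTwin A 1 := h.cast (by simp)
    exact h'.succ_of_one.cast (by simp)
  | succ m ih =>
    intro A h
    have h1 : TateTwin (H572.up A) (1 + m) :=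
      TateTwin.up (h.cast (by push_cast; ring))
    have h2 := (ih (H572.up A) h1).of_up
    exact h2.cast (by push_cast; ring)

end Finite

section Fintype

variable [Fintype G]

/-- Moving the window down by one, at an arbitrary position `2 - m`, `m ≥ 0`. -/
lemma TateTwin.pred_nat : ∀ (m : ℕ) (A : Rep.{u} k G), TateTwin A (2 - m) →
    TateTwin A (2 - m - 1) := by
  intro m
  induction m with
  | zero =>
    intro A h
    have h' : TateTwin A 2 := h.cast (by simp)
    exact h'.pred_of_two.cast (by simp)
  | succ m ih =>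
    intro A h
    have h1 : TateTwin (H572.down A) (2 - m) :=
      (TateTwin.down h).cast (by push_cast; ring)
    have h2 := ih (H572.down A) h1
    apply TateTwin.of_down
    exact h2.cast (by push_cast; ring)

/-- From the window at `1` to the window at `1 + m`. -/
lemma TateTwin.add_nat (A : Rep.{u} k G) (h : TateTwin A 1) : ∀ m : ℕ, TateTwin A (1 + m) := by
  intro m
  induction m with
  | zero => exact h.cast (by simp)
  | succ m ih =>
    exact (TateTwin.succ_nat m A ih).cast (by push_cast; ring)

/-- From the window at `1` to the window at `1 - m`. -/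
lemma TateTwin.sub_nat (A : Rep.{u} k G) (h : TateTwin A 1) : ∀ m : ℕ, TateTwin A (1 - m) := by
  intro m
  induction m with
  | zero => exact h.cast (by simp)
  | succ m ih =>
    have h2 : TateTwin A (2 - (m + 1 : ℕ)) := ih.cast (by push_cast; ring)
    exact (TateTwin.pred_nat (m + 1) A h2).cast (by push_cast; ring)

/-- **Twin-vanishing criterion, Tate form at `1`.** -/
theorem isZero_tate_of_tateTwin_one (A : Rep.{u} k G) (h : TateTwin A 1)
    (H : Subgroup G) [Fintype H] (n : ℤ) :
    IsZero (tateCohomology (res H.subtype A) n) := by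
  rcases le_total 1 n with hn | hn
  · obtain ⟨m, rfl⟩ : ∃ m : ℕ, n = 1 + m := ⟨(n - 1).toNat, by omega⟩
    exact (TateTwin.add_nat A h m H).1
  · obtain ⟨m, rfl⟩ : ∃ m : ℕ, n = 1 - m := ⟨(1 - n).toNat, by omega⟩
    exact (TateTwin.sub_nat A h m H).1

end Fintype

end

end Fermat.Agent.S55.H295
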