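import Fermat.Agent.S55.H295.Invariants

/-!
# Cohomological triviality, part 3: higher inflation–restriction (vanishing form)

For `S ⊴ G` and `A : Rep k G`:

* `isZero_H_quot_of`: if `Hⁱ(S, A) = 0` for `1 ≤ i ≤ n` and `Hⁿ⁺¹(G, A) = 0`, then
  `Hⁿ⁺¹(G ⧸ S, A^S) = 0` (injectivity of inflation);
* `isZero_H_of_quot`: if `Hⁱ(S, A) = 0` for `1 ≤ i ≤ n + 1` and `Hⁿ⁺¹(G ⧸ S, A^S) = 0`, then
  `Hⁿ⁺¹(G, A) = 0` (exactness in the middle).

Both are proved by dimension shifting, starting from Mathlib's degree-one statement.
-/

set_option autoImplicit false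

open CategoryTheory groupCohomology Rep Limits

universe u

namespace Fermat.Agent.S55.H295

noncomputable section

variable {k G : Type u} [CommRing k] [Group G] (S : Subgroup G) [S.Normal]

/-- The invariants of the shifting sequence, as a short exact sequence of `G ⧸ S`-modules. -/
lemma upSES_qti_shortExact (A : Rep.{u} k G)
    (h1 : IsZero (groupCohomology (res S.subtype A) 1)) :
    ((upSES A).map (quotientToInvariantsFunctor.{u} k S)).ShortExact :=
  shortExact_quotientToInvariants S (upSES_shortExact A) h1

/-- Injectivity of inflation in degree `n + 1`, in vanishing form. -/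
theorem isZero_H_quot_of : ∀ (n : ℕ) (A : Rep.{u} k G),
    (∀ i, i < n → IsZero (groupCohomology (res S.subtype A) (i + 1))) →
    IsZero (groupCohomology A (n + 1)) →
    IsZero (groupCohomology (A.quotientToInvariants S) (n + 1)) := by
  intro n
  induction n with
  | zero =>
    intro A _ hG
    have h := IsZero.of_mono (H1InfRes A S).f (show IsZero (H1InfRes A S).X₂ from hG)
    exact h
  | succ n ih =>
    intro A hS hG
    have hS1 : IsZero (groupCohomology (res S.subtype A) 1) := hS 0 (Nat.succ_pos n)
    have hup : IsZero (groupCohomology ((up A).quotientToInvariants S) (n + 1)) := by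
      apply ih (up A)
      · intro i hi
        exact (isZero_H_up_iff S.subtype S.subtype_injective A i).2 (hS (i + 1) (by omega))
      · exact (isZero_H_up_iff_self A n).2 hG
    exact isZero_H_left (upSES_qti_shortExact S A hS1) (n + 1) hup
      (isZero_H_quotientToInvariants_coindBot S A (n + 1))

/-- Exactness of inflation–restriction in the middle in degree `n + 1`, in vanishing form. -/
theorem isZero_H_of_quot : ∀ (n : ℕ) (A : Rep.{u} k G),
    (∀ i, i ≤ n → IsZero (groupCohomology (res S.subtype A) (i + 1))) →
    IsZero (groupCohomology (A.quotientToInvariants S) (n + 1)) →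
    IsZero (groupCohomology A (n + 1)) := by
  intro n
  induction n with
  | zero =>
    intro A hS hQ
    exact (H1InfRes_exact A S).isZero_of_both_isZero hQ (hS 0 le_rfl)
  | succ n ih =>
    intro A hS hQ
    have hS1 : IsZero (groupCohomology (res S.subtype A) 1) := hS 0 (Nat.zero_le _)
    have hupQ : IsZero (groupCohomology ((up A).quotientToInvariants S) (n + 1)) :=
      isZero_H_right (upSES_qti_shortExact S A hS1) (n + 1)
        (isZero_H_quotientToInvariants_coindBot S A n) hQ
    have hup : IsZero (groupCohomology (up A) (n + 1)) := by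
      apply ih (up A) _ hupQ
      intro i hi
      exact (isZero_H_up_iff S.subtype S.subtype_injective A i).2 (hS (i + 1) (by omega))
    exact (isZero_H_up_iff_self A n).1 hup

end

end Fermat.Agent.S55.H295
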