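import Fermat.Agent.S55.H295.Shift

/-!
# Cohomological triviality, part 2: invariants under a normal subgroup

* `shortExact_quotientToInvariants`: for `S ⊴ G` and a short exact sequence
  `0 → X₁ → X₂ → X₃ → 0` of `G`-modules with `H¹(S, X₁) = 0`, the sequence of `G ⧸ S`-modules
  `0 → X₁^S → X₂^S → X₃^S → 0` is short exact.
* `isZero_H_quotientToInvariants_coindBot`: `(coind_1^G A)^S` is an acyclic `G ⧸ S`-module.
-/

set_option autoImplicit false

open CategoryTheory groupCohomology Rep Limits

universe u

namespace Fermat.Agent.S55.H295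

open Fermat.Agent.S55.H572

noncomputable section

variable {k G : Type u} [CommRing k] [Group G] (S : Subgroup G) [S.Normal]

lemma qti_map_apply_coe {X Y : Rep.{u} k G} (f : X ⟶ Y) (x : X.quotientToInvariants S) :
    (((quotientToInvariantsFunctor k S).map f).hom x).1 = f.hom x.1 := rfl

instance qti_preservesZeroMorphisms :
    (quotientToInvariantsFunctor.{u} k S).PreservesZeroMorphisms where
  map_zero X Y := by
    apply Rep.hom_ext
    apply Representation.IntertwiningMap.ext
    apply LinearMap.ext
    intro x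
    apply Subtype.ext
    rfl

/-- Invariants under a normal subgroup `S` are exact on short exact sequences whose kernel has
vanishing `H¹(S, -)`. -/
theorem shortExact_quotientToInvariants {X : ShortComplex (Rep.{u} k G)} (hX : X.ShortExact)
    (h1 : IsZero (groupCohomology (res S.subtype X.X₁) 1)) :
    (X.map (quotientToInvariantsFunctor.{u} k S)).ShortExact := by
  have hinj := rep_shortExact_inj hX
  have hsurj := rep_shortExact_surj hX
  have hex := rep_shortExact_exact hX
  have hfρ : ∀ (g : G) (x : X.X₁), X.f.hom (X.X₁.ρ g x) = X.X₂.ρ g (X.f.hom x) :=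
    fun g x => Rep.hom_comm_apply X.f g x
  have hgρ : ∀ (g : G) (x : X.X₂), X.g.hom (X.X₂.ρ g x) = X.X₃.ρ g (X.g.hom x) :=
    fun g x => Rep.hom_comm_apply X.g g x
  apply rep_shortExact_of
  · -- injectivity
    intro x y hxy
    apply Subtype.ext
    apply hinj
    have h2 : (((quotientToInvariantsFunctor.{u} k S).map X.f).hom x).1 =
        (((quotientToInvariantsFunctor.{u} k S).map X.f).hom y).1 := congrArg Subtype.val hxy
    rw [qti_map_apply_coe, qti_map_apply_coe] at h2
    exact h2
  · -- exactness in the middle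
    intro y hy
    have hy' : X.g.hom y.1 = 0 := by
      have h2 : (((quotientToInvariantsFunctor.{u} k S).map X.g).hom y).1 = 0 :=
        congrArg Subtype.val hy
      rw [qti_map_apply_coe] at h2
      exact h2
    obtain ⟨x, hx⟩ := hex y.1 hy'
    refine ⟨⟨x, fun s => ?_⟩, ?_⟩
    · apply hinj
      change X.f.hom (X.X₁.ρ (s : G) x) = X.f.hom x
      rw [hfρ, hx]
      exact y.2 s
    · apply Subtype.ext
      exact hx
  · -- surjectivity, using `H¹(S, X₁) = 0`
    intro z
    obtain ⟨y, hy⟩ := hsurj z.1
    have hz : ∀ s : S, X.X₃.ρ (s : G) z.1 = z.1 := fun s => z.2 s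
    have hker : ∀ s : S, ∃ c : X.X₁, X.f.hom c = X.X₂.ρ (s : G) y - y := by
      intro s
      apply hex
      rw [map_sub, hgρ, hy, hz, sub_self]
    choose c hc using hker
    have hcoc : c ∈ cocycles₁ (res S.subtype X.X₁) := by
      rw [mem_cocycles₁_iff]
      intro s t
      apply hinj
      change X.f.hom (c (s * t)) = X.f.hom (X.X₁.ρ (s : G) (c t) + c s)
      rw [map_add, hfρ, hc, hc, hc, Subgroup.coe_mul, map_mul, map_sub]
      simp only [Module.End.mul_apply]
      abel
    have hzero : H1π (res S.subtype X.X₁) ⟨c, hcoc⟩ = 0 :=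
      (ModuleCat.subsingleton_of_isZero h1).elim _ _
    rw [H1π_eq_zero_iff] at hzero
    obtain ⟨a, ha⟩ := hzero
    have ha' : ∀ s : S, X.X₁.ρ (s : G) a - a = c s := fun s => congrFun ha s
    refine ⟨⟨y - X.f.hom a, fun s => ?_⟩, ?_⟩
    · change X.X₂.ρ (s : G) (y - X.f.hom a) = y - X.f.hom a
      have h2 : X.f.hom (c s) = X.X₂.ρ (s : G) (X.f.hom a) - X.f.hom a := by
        rw [← ha' s, map_sub, hfρ]
      rw [map_sub]
      have h3 := hc s
      rw [h2] at h3
      have h4 : X.X₂.ρ (s : G) y = X.X₂.ρ (s : G) (X.f.hom a) - X.f.hom a + y := by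
        rw [h3]; abel
      rw [h4]; abel
    · apply Subtype.ext
      change X.g.hom (y - X.f.hom a) = z.1
      rw [map_sub, hy]
      have h0 : (X.f ≫ X.g).hom a = (0 : X.X₁ ⟶ X.X₃).hom a := by rw [X.zero]
      have : X.g.hom (X.f.hom a) = 0 := h0
      rw [this, sub_zero]

end

end Fermat.Agent.S55.H295

namespace Fermat.Agent.S55.H295

open Fermat.Agent.S55.H572

noncomputable section

variable {k G : Type u} [CommRing k] [Group G] (S : Subgroup G) [S.Normal]

/-- Coefficients of `(coind_1^G A)^S` viewed as a coinduced `G ⧸ S`-module. -/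
abbrev coeffQuot (A : Rep.{u} k G) : Rep.{u} k (⊥ : Subgroup (G ⧸ S)) :=
  Rep.trivial k (⊥ : Subgroup (G ⧸ S)) A.V

lemma coindBot_inv_apply (A : Rep.{u} k G) (φ : (coindBot A).quotientToInvariants S)
    (x : G) (s : G) (hs : s ∈ S) : φ.1.1 (x * s) = φ.1.1 x := by
  have h := φ.2 ⟨s, hs⟩
  exact congrFun (congrArg Subtype.val h) x

/-- The underlying linear equivalence of `qtiCoindBotIso`. -/
def qtiCoindBotLinearEquiv (A : Rep.{u} k G) :
    ((coindBot A).quotientToInvariants S).V ≃ₗ[k]
      (coind (⊥ : Subgroup (G ⧸ S)).subtype (coeffQuot S A)).V where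
  toFun φ := mkCoind (coeffQuot S A) (fun q => Quotient.liftOn' q (fun x => φ.1.1 x)
    (fun x y hxy => by
      have hmem : x⁻¹ * y ∈ S := QuotientGroup.leftRel_apply.mp hxy
      have := coindBot_inv_apply S A φ x (x⁻¹ * y) hmem
      rw [mul_inv_cancel_left] at this
      exact this.symm))
  map_add' φ ψ := by
    apply Subtype.ext
    funext q
    induction q using QuotientGroup.induction_on with
    | H x => rfl
  map_smul' r φ := by
    apply Subtype.ext
    funext q
    induction q using QuotientGroup.induction_on with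
    | H x => rfl
  invFun ψ := ⟨mkCoind (botRes A) (fun x => ψ.1 (QuotientGroup.mk x)), fun s => by
    apply Subtype.ext
    funext x
    change ψ.1 (QuotientGroup.mk (x * (s : G))) = ψ.1 (QuotientGroup.mk x)
    rw [QuotientGroup.mk_mul_of_mem _ s.2]⟩
  left_inv φ := by
    apply Subtype.ext
    apply Subtype.ext
    funext x
    rfl
  right_inv ψ := by
    apply Subtype.ext
    funext q
    induction q using QuotientGroup.induction_on with
    | H x => rfl

/-- `(coind_1^G A)^S ≅ coind_1^{G/S}(A)` as `G ⧸ S`-modules. -/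
def qtiCoindBotIso (A : Rep.{u} k G) :
    (coindBot A).quotientToInvariants S ≅
      coind (⊥ : Subgroup (G ⧸ S)).subtype (coeffQuot S A) :=
  Rep.mkIso (Representation.Equiv.mk (qtiCoindBotLinearEquiv S A) (fun q => by
    induction q using QuotientGroup.induction_on with
    | H g =>
      apply LinearMap.ext
      intro φ
      apply Subtype.ext
      funext q'
      induction q' using QuotientGroup.induction_on with
      | H x => rfl))

/-- `(coind_1^G A)^S` is an acyclic `G ⧸ S`-module. -/
theorem isZero_H_quotientToInvariants_coindBot (A : Rep.{u} k G) (n : ℕ) :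
    IsZero (groupCohomology ((coindBot A).quotientToInvariants S) (n + 1)) :=
  IsZero.of_iso (IsZero.of_iso (isZero_groupCohomology_succ_of_subsingleton (coeffQuot S A) n)
      (groupCohomology.coindIso (coeffQuot S A) (n + 1)))
    ((groupCohomology.functor k (G ⧸ S) (n + 1)).mapIso (qtiCoindBotIso S A))

end

end Fermat.Agent.S55.H295
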