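import Fermat.Agent.S55.H295.Shift
import Fermat.Agent.S55.H783.Natural

/-!
# Shapiro's lemma in explicit form (T8)

For a subgroup `S ≤ G` (arbitrary group `G`) and `A : Rep k S`, the composite
`Hⁿ(G, Coind_S^G A) --res--> Hⁿ(S, Coind_S^G A) --ev₁--> Hⁿ(S, A)` is bijective for all `n`.

Proof: degree `0` by hand, then dimension shifting: apply `Coind_S^G` to
`0 → A → coind₁ A → up A → 0`; the middle term stays acyclic (Mathlib's abstract Shapiro
isomorphism), the counit of `Res ⊣ Coind` is a morphism of short exact sequences, and the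
connecting homomorphisms are natural (`H783.δ_naturality_map`).
-/

set_option autoImplicit false
set_option linter.unusedSectionVars false

open CategoryTheory groupCohomology Rep Limits

universe u

namespace Fermat.Agent.S55.H295

noncomputable section

variable {k G : Type u} [CommRing k] [Group G] (S : Subgroup G)

/-- Evaluation at `1`: the counit of `Res ⊣ Coind`. -/
abbrev shEv (A : Rep.{u} k S) : res S.subtype (coind S.subtype A) ⟶ A :=
  (Rep.resCoindAdjunction k S.subtype).counit.app A

lemma shEv_apply (A : Rep.{u} k S) (f : coind S.subtype A) : (shEv S A).hom f = f.1 1 := rfl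

lemma shEv_naturality {A B : Rep.{u} k S} (g : A ⟶ B) :
    (resFunctor S.subtype).map (coindMap S.subtype g) ≫ shEv S B = shEv S A ≫ g :=
  (Rep.resCoindAdjunction k S.subtype).counit.naturality g

/-- The explicit Shapiro map `Hⁿ(G, Coind A) ⟶ Hⁿ(S, A)`. -/
abbrev shMap (A : Rep.{u} k S) (n : ℕ) :
    groupCohomology (coind S.subtype A) n ⟶ groupCohomology A n :=
  groupCohomology.map S.subtype (shEv S A) n

/-- Naturality of the explicit Shapiro map in the coefficients. -/
lemma shMap_naturality {A B : Rep.{u} k S} (g : A ⟶ B) (n : ℕ) :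
    groupCohomology.map (MonoidHom.id G) (coindMap S.subtype g) n ≫ shMap S B n =
      shMap S A n ≫ groupCohomology.map (MonoidHom.id S) g n := by
  rw [← groupCohomology.map_comp, ← groupCohomology.map_comp]
  refine groupCohomology.map_congr rfl ?_ n
  have h := shEv_naturality S g
  exact congrArg (fun φ => φ.hom.toLinearMap) h

/-! ### Degree `0` -/

lemma shMap_zero_apply (A : Rep.{u} k S) (x : groupCohomology (coind S.subtype A) 0) :
    ((H0Iso A).hom ((shMap S A 0).hom x)).1 = ((H0Iso (coind S.subtype A)).hom x).1.1 1 := by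
  have h := map_H0Iso_hom_f_apply (f := S.subtype) (φ := shEv S A) x
  exact h

lemma coind_inv_apply (A : Rep.{u} k S) (f : (coind S.subtype A).ρ.invariants) (g : G) :
    f.1.1 g = f.1.1 1 := by
  have h := f.2 g
  have h2 := congrArg (fun φ : (coind S.subtype A).V => φ.1 1) h
  simpa using h2

theorem shMap_zero_bijective (A : Rep.{u} k S) : Function.Bijective (shMap S A 0).hom := by
  constructor
  · rw [injective_iff_map_eq_zero]
    intro x hx
    have h1 := shMap_zero_apply S A x
    rw [hx, map_zero] at h1
    have h2 : (H0Iso (coind S.subtype A)).hom x = 0 := by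
      apply Subtype.ext
      apply Subtype.ext
      funext g
      rw [coind_inv_apply S A _ g]
      exact h1.symm
    have h3 := congrArg (H0Iso (coind S.subtype A)).inv.hom h2
    simpa using h3
  · intro y
    let a : A.ρ.invariants := (H0Iso A).hom y
    let f : (coind S.subtype A).V := ⟨fun _ => a.1, fun s _ => (a.2 s).symm⟩
    have hf : f ∈ (coind S.subtype A).ρ.invariants := by
      intro g
      apply Subtype.ext
      rfl
    refine ⟨(H0Iso (coind S.subtype A)).inv.hom ⟨f, hf⟩, ?_⟩
    have h1 := shMap_zero_apply S A ((H0Iso (coind S.subtype A)).inv.hom ⟨f, hf⟩)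
    have h2 : (H0Iso (coind S.subtype A)).hom ((H0Iso (coind S.subtype A)).inv.hom ⟨f, hf⟩) =
        ⟨f, hf⟩ := by simp
    rw [h2] at h1
    have h3 : (H0Iso A).hom ((shMap S A 0).hom ((H0Iso (coind S.subtype A)).inv.hom ⟨f, hf⟩)) =
        (H0Iso A).hom y := Subtype.ext h1
    have h4 := congrArg (H0Iso A).inv.hom h3
    simpa using h4

/-! ### The coinduced shifting sequence -/

/-- `Coind_S^G` applied to the shifting sequence `0 → A → coind₁ A → up A → 0`. -/
def shSES (A : Rep.{u} k S) : ShortComplex (Rep.{u} k G) :=
  ShortComplex.mk (coindMap S.subtype (upSES A).f) (coindMap S.subtype (upSES A).g) (by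
    apply Rep.hom_ext
    apply Representation.IntertwiningMap.ext
    apply LinearMap.ext
    intro f
    apply Subtype.ext
    funext x
    have h0 : (upSES A).f ≫ (upSES A).g = 0 := (upSES A).zero
    exact congrArg (fun φ : (upSES A).X₁ ⟶ (upSES A).X₃ => φ.hom (f.1 x)) h0)

lemma shSES_shortExact (A : Rep.{u} k S) : (shSES S A).ShortExact := by
  have hX := upSES_shortExact A
  have hinj := rep_shortExact_inj hX
  have hex := rep_shortExact_exact hX
  apply rep_shortExact_of
  · intro f f' h
    apply Subtype.ext
    funext x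
    apply hinj
    exact congrFun (congrArg Subtype.val h) x
  · intro F hF
    have hF' : ∀ x : G, (upSES A).g.hom (F.1 x) = 0 := fun x =>
      congrFun (congrArg Subtype.val hF) x
    choose f hf using fun x => hex (F.1 x) (hF' x)
    refine ⟨⟨f, fun s x => ?_⟩, ?_⟩
    · apply hinj
      rw [hf]
      have h1 := F.2 s x
      rw [h1, ← hf x]
      exact (Rep.hom_comm_apply (upSES A).f s (f x)).symm
    · apply Subtype.ext
      funext x
      exact hf x
  · have : Epi ((coindFunctor k S.subtype).map (upSES A).g) := by
      have : Epi (upSES A).g := hX.epi_g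
      infer_instance
    exact (Rep.epi_iff_surjective _).1 this

/-- The middle term of the coinduced shifting sequence is acyclic. -/
lemma isZero_H_shSES_X₂ (A : Rep.{u} k S) (n : ℕ) :
    IsZero (groupCohomology (shSES S A).X₂ (n + 1)) :=
  IsZero.of_iso (isZero_H_coindBot A n) (groupCohomology.coindIso (coindBot A) (n + 1))

/-- The counit as a morphism of short exact sequences. -/
def shΦ (A : Rep.{u} k S) : (shSES S A).map (resFunctor S.subtype) ⟶ upSES A where
  τ₁ := shEv S A
  τ₂ := shEv S (coindBot A)
  τ₃ := shEv S (up A)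
  comm₁₂ := shEv_naturality S (upSES A).f
  comm₂₃ := shEv_naturality S (upSES A).g

/-- Naturality of the connecting homomorphisms with respect to the explicit Shapiro maps. -/
lemma shMap_δ (A : Rep.{u} k S) (n : ℕ) :
    δ (shSES_shortExact S A) n (n + 1) rfl ≫ shMap S A (n + 1) =
      shMap S (up A) n ≫ δ (upSES_shortExact A) n (n + 1) rfl :=
  H783.δ_naturality_map S.subtype (shSES_shortExact S A) (upSES_shortExact A) (shΦ S A)
    n (n + 1) rfl

/-! ### The induction -/

section Step

variable (n : ℕ) (A : Rep.{u} k S)

lemma sh_δG_surjective :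
    Function.Surjective (δ (shSES_shortExact S A) n (n + 1) rfl).hom :=
  (ModuleCat.epi_iff_surjective _).1
    (epi_δ_of_isZero (shSES_shortExact S A) n (isZero_H_shSES_X₂ S A n))

lemma sh_δS_surjective :
    Function.Surjective (δ (upSES_shortExact A) n (n + 1) rfl).hom :=
  (ModuleCat.epi_iff_surjective _).1
    (epi_δ_of_isZero (upSES_shortExact A) n (isZero_H_coindBot A n))

lemma sh_sq (w : groupCohomology (shSES S A).X₃ n) :
    (shMap S A (n + 1)).hom ((δ (shSES_shortExact S A) n (n + 1) rfl).hom w) =
      (δ (upSES_shortExact A) n (n + 1) rfl).hom ((shMap S (up A) n).hom w) :=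
  congrArg (fun φ : groupCohomology (shSES S A).X₃ n ⟶ groupCohomology A (n + 1) => φ.hom w)
    (shMap_δ S A n)

lemma sh_nat (v : groupCohomology (shSES S A).X₂ n) :
    (shMap S (up A) n).hom
        ((groupCohomology.map (A := (shSES S A).X₂) (B := (shSES S A).X₃)
          (MonoidHom.id G) (shSES S A).g n).hom v) =
      (groupCohomology.map (A := (upSES A).X₂) (B := (upSES A).X₃)
        (MonoidHom.id S) (upSES A).g n).hom ((shMap S (coindBot A) n).hom v) :=
  congrArg (fun φ : groupCohomology (shSES S A).X₂ n ⟶ groupCohomology (up A) n => φ.hom v)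
    (shMap_naturality S (upSES A).g n)

lemma sh_exS (x : groupCohomology (up A) n)
    (hx : (δ (upSES_shortExact A) n (n + 1) rfl).hom x = 0) :
    ∃ v, (groupCohomology.map (A := (upSES A).X₂) (B := (upSES A).X₃)
      (MonoidHom.id S) (upSES A).g n).hom v = x :=
  (ShortComplex.moduleCat_exact_iff _).1
    (mapShortComplex₃_exact (upSES_shortExact A) (i := n) rfl) x hx

lemma sh_zeroG (v : groupCohomology (shSES S A).X₂ n) :
    (δ (shSES_shortExact S A) n (n + 1) rfl).hom
      ((groupCohomology.map (A := (shSES S A).X₂) (B := (shSES S A).X₃)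
        (MonoidHom.id G) (shSES S A).g n).hom v) = 0 :=
  congrArg (fun φ : groupCohomology (shSES S A).X₂ n ⟶
      groupCohomology (shSES S A).X₁ (n + 1) => φ.hom v)
    (mapShortComplex₃ (shSES_shortExact S A) (i := n) rfl).zero

/-- The induction step. -/
theorem shMap_step
    (ih_up : Function.Bijective (shMap S (up A) n).hom)
    (ih_I : Function.Bijective (shMap S (coindBot A) n).hom) :
    Function.Bijective (shMap S A (n + 1)).hom := by
  constructor
  · rw [injective_iff_map_eq_zero]
    intro x hx
    obtain ⟨w, rfl⟩ := sh_δG_surjective S n A x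
    have hx2 : (δ (upSES_shortExact A) n (n + 1) rfl).hom ((shMap S (up A) n).hom w) = 0 :=
      (sh_sq S n A w).symm.trans hx
    obtain ⟨v, hv⟩ := sh_exS S n A _ hx2
    obtain ⟨u', rfl⟩ := ih_I.2 v
    have hv' := (sh_nat S n A u').trans hv
    have hw := ih_up.1 hv'
    rw [← hw]
    exact sh_zeroG S n A u'
  · intro y
    obtain ⟨z, rfl⟩ := sh_δS_surjective S n A y
    obtain ⟨w, rfl⟩ := ih_up.2 z
    exact ⟨(δ (shSES_shortExact S A) n (n + 1) rfl).hom w, sh_sq S n A w⟩

end Step

/-- **Shapiro's lemma in explicit form** (universe polymorphic). -/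
theorem shMap_bijective (n : ℕ) : ∀ A : Rep.{u} k S, Function.Bijective (shMap S A n).hom := by
  induction n with
  | zero => exact fun A => shMap_zero_bijective S A
  | succ n ih => exact fun A => shMap_step S n A (ih (up A)) (ih (coindBot A))

end

end Fermat.Agent.S55.H295
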