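import Fermat.Agent.S55.H295.Shapiro
import Fermat.Agent.S55.T.Spec3

/-!
# `T8`: Shapiro's lemma in explicit form and in recognition form

* `shapiroExplicit : T.ShapiroExplicitSpec`
* `shapiroRecognition : T.ShapiroRecognitionSpec`
-/

set_option autoImplicit false
set_option linter.unusedSectionVars false

open CategoryTheory groupCohomology Rep Limits

namespace Fermat.Agent.S55.H295

noncomputable section

/-- **T8.**  Shapiro's lemma in explicit form. -/
theorem shapiroExplicit : T.ShapiroExplicitSpec := by
  intro k G _ _ S A n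
  exact shMap_bijective S n A

section Recognition

variable {k G : Type} [CommRing k] [Group G] (S : Subgroup G) (A : Rep.{0} k S)
  (B : Rep.{0} k G) (π : Rep.res S.subtype B ⟶ A)

/-- The adjunct `B ⟶ Coind_S^G A` of `π : Res_S B ⟶ A`, `b ↦ (g ↦ π (g • b))`. -/
def recθ : B ⟶ coind S.subtype A := resCoindToHom S.subtype B A π

lemma recθ_apply (b : B.V) (g : G) : ((recθ S A B π).hom b).1 g = π.hom (B.ρ g b) := rfl

lemma recθ_comp_shEv :
    (resFunctor S.subtype).map (recθ S A B π) ≫ shEv S A = π := by
  apply Rep.hom_ext
  apply Representation.IntertwiningMap.ext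
  apply LinearMap.ext
  intro b
  change ((recθ S A B π).hom b).1 1 = π.hom b
  rw [recθ_apply, map_one]
  rfl

lemma recθ_bijective
    (h : ∀ f : G → A.V, (∀ (s : S) (g : G), f (s * g) = A.ρ s (f g)) →
      ∃! b : B.V, ∀ g : G, π.hom (B.ρ g b) = f g) :
    Function.Bijective (recθ S A B π).hom := by
  constructor
  · intro b b' hbb'
    obtain ⟨b₀, -, huniq⟩ := h ((recθ S A B π).hom b).1 (fun s g => ((recθ S A B π).hom b).2 s g)
    have h1 : b = b₀ := huniq b (fun g => rfl)
    have h2 : b' = b₀ := huniq b' (fun g => by
      rw [hbb']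
      rfl)
    rw [h1, h2]
  · intro F
    obtain ⟨b, hb, -⟩ := h F.1 (fun s g => F.2 s g)
    refine ⟨b, ?_⟩
    apply Subtype.ext
    funext g
    exact hb g

/-- **T8'.**  Shapiro's lemma, recognition form. -/
theorem shapiroRecognition : T.ShapiroRecognitionSpec := by
  intro k G _ _ S A B π h n
  have hbij := recθ_bijective S A B π h
  have hmono : Mono (recθ S A B π) := (Rep.mono_iff_injective _).2 hbij.1
  have hepi : Epi (recθ S A B π) := (Rep.epi_iff_surjective _).2 hbij.2
  have hiso : IsIso (recθ S A B π) := isIso_of_mono_of_epi _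
  have hiso' : IsIso (groupCohomology.map (MonoidHom.id G) (recθ S A B π) n) :=
    inferInstanceAs (IsIso ((groupCohomology.functor k G n).map (recθ S A B π)))
  have hcomp : groupCohomology.map S.subtype π n =
      groupCohomology.map (MonoidHom.id G) (recθ S A B π) n ≫ shMap S A n := by
    rw [← groupCohomology.map_comp]
    refine groupCohomology.map_congr rfl ?_ n
    exact congrArg (fun φ => φ.hom.toLinearMap) (recθ_comp_shEv S A B π).symm
  rw [hcomp]
  have hb1 : Function.Bijective
      (groupCohomology.map (MonoidHom.id G) (recθ S A B π) n).hom :=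
    ConcreteCategory.bijective_of_isIso _
  have hb2 := shMap_bijective S n A
  exact hb2.comp hb1

end Recognition

end

end Fermat.Agent.S55.H295
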