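import Fermat.Agent.S55.H295.Basic
import Fermat.Agent.S55.H572.ResCoind

/-!
# Cohomological triviality, part 1: upward dimension shifting

For `A : Rep k G` we embed `A` into `coindBot A = coind_1^G(A)` (all functions `G → A`, with
`G` acting by right translation) via `a ↦ (x ↦ ρ(x) a)` and let `up A` be the cokernel.
Since `coindBot A` is acyclic for every subgroup (Shapiro; `helper572`), we get
`Hⁿ⁺¹(H, A) = 0 ↔ Hⁿ(H, up A) = 0` for `n ≥ 1` and every injective `f : H →* G`.
-/

set_option autoImplicit false

open CategoryTheory groupCohomology Rep Limits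

universe u

namespace Fermat.Agent.S55.H295

open Fermat.Agent.S55.H572

noncomputable section

variable {k G : Type u} [CommRing k] [Group G]

/-- The coefficient module of `coindBot`. -/
abbrev botRes (A : Rep.{u} k G) : Rep.{u} k (⊥ : Subgroup G) := res (⊥ : Subgroup G).subtype A

/-- `coind_1^G(A)`: all functions `G → A`, with `G` acting by right translation. -/
abbrev coindBot (A : Rep.{u} k G) : Rep.{u} k G := coind (⊥ : Subgroup G).subtype (botRes A)

/-- The canonical embedding `A → coind_1^G(A)`, `a ↦ (x ↦ ρ(x) a)`. -/
def upι (A : Rep.{u} k G) : A ⟶ coindBot A :=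
  Rep.ofHom
    { toFun := fun a => mkCoind (botRes A) (fun x => A.ρ x a)
      map_add' := fun a b => by
        apply Subtype.ext
        funext x
        exact map_add (A.ρ x) a b
      map_smul' := fun r a => by
        apply Subtype.ext
        funext x
        exact map_smul (A.ρ x) r a
      isIntertwining' := fun g => by
        apply LinearMap.ext
        intro a
        apply Subtype.ext
        funext x
        change A.ρ x (A.ρ g a) = A.ρ (x * g) a
        rw [map_mul]
        rfl }

lemma upι_apply_coe (A : Rep.{u} k G) (a : A) (x : G) :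
    ((upι A).hom a).1 x = A.ρ x a := rfl

lemma upι_injective (A : Rep.{u} k G) : Function.Injective (upι A).hom := by
  intro a b h
  have h1 : ((upι A).hom a).1 1 = ((upι A).hom b).1 1 := by rw [h]
  rw [upι_apply_coe, upι_apply_coe, map_one] at h1
  exact h1

instance (A : Rep.{u} k G) : Mono (upι A) := (Rep.mono_iff_injective _).2 (upι_injective A)

/-- The short exact sequence `0 → A → coind_1^G(A) → up A → 0`. -/
def upSES (A : Rep.{u} k G) : ShortComplex (Rep.{u} k G) :=
  ShortComplex.mk (upι A) (cokernel.π (upι A)) (cokernel.condition _)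

/-- The upward shift `A⁺ = coind_1^G(A) / A`. -/
abbrev up (A : Rep.{u} k G) : Rep.{u} k G := (upSES A).X₃

lemma upSES_shortExact (A : Rep.{u} k G) : (upSES A).ShortExact where
  exact := ShortComplex.exact_cokernel (upι A)
  mono_f := inferInstanceAs (Mono (upι A))
  epi_g := inferInstanceAs (Epi (cokernel.π (upι A)))

/-- `coind_1^G(A)` is acyclic. -/
theorem isZero_H_coindBot (A : Rep.{u} k G) (n : ℕ) :
    IsZero (groupCohomology (coindBot A) (n + 1)) :=
  IsZero.of_iso (isZero_groupCohomology_succ_of_subsingleton (botRes A) n)
    (groupCohomology.coindIso (botRes A) (n + 1))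

/-- `coind_1^G(A)` is acyclic on every subgroup, in hom-form. -/
theorem isZero_H_res_coindBot {H : Type u} [Group H] (f : H →* G) (hf : Function.Injective f)
    (A : Rep.{u} k G) (n : ℕ) :
    IsZero (groupCohomology (res f (coindBot A)) (n + 1)) :=
  isZero_res_of_range f hf _ _ (isZero_groupCohomology_res_coind_bot f.range (botRes A) n)

/-- The restriction of the shifting sequence. -/
lemma upSES_res_shortExact {H : Type u} [Group H] (f : H →* G) (A : Rep.{u} k G) :
    ((upSES A).map (resFunctor f)).ShortExact :=
  (Rep.shortExact_res f).2 (upSES_shortExact A)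

/-- Dimension shifting, upward: `Hⁿ⁺²(H, A) = 0 ↔ Hⁿ⁺¹(H, A⁺) = 0`. -/
theorem isZero_H_up_iff {H : Type u} [Group H] (f : H →* G) (hf : Function.Injective f)
    (A : Rep.{u} k G) (n : ℕ) :
    IsZero (groupCohomology (res f (up A)) (n + 1)) ↔
      IsZero (groupCohomology (res f A) (n + 2)) := by
  constructor
  · intro h
    exact isZero_H_left (upSES_res_shortExact f A) (n + 1) h (isZero_H_res_coindBot f hf A (n + 1))
  · intro h
    exact isZero_H_right (upSES_res_shortExact f A) (n + 1) (isZero_H_res_coindBot f hf A n) h

/-- Dimension shifting for the group itself. -/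
theorem isZero_H_up_iff_self (A : Rep.{u} k G) (n : ℕ) :
    IsZero (groupCohomology (up A) (n + 1)) ↔ IsZero (groupCohomology A (n + 2)) := by
  constructor
  · intro h
    exact isZero_H_left (upSES_shortExact A) (n + 1) h (isZero_H_coindBot A (n + 1))
  · intro h
    exact isZero_H_right (upSES_shortExact A) (n + 1) (isZero_H_coindBot A n) h

end

end Fermat.Agent.S55.H295
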