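import Fermat.Agent.S55.H295.SplitDefs
import Fermat.Agent.S55.H783.ResCor

/-!
# The splitting module of a 2-cocycle: cohomology

For every subgroup `H ≤ G`:

* `exists_cohomologous_augu` : every 1-cocycle `H → I` is cohomologous to a multiple of the
  canonical cocycle `u(h) = h δ₁ - δ₁`;
* `δ_split_augu` : the connecting homomorphism `H¹(H, I) → H²(H, C)` of
  `0 → C → C(c) → I → 0` sends the class of `u` to `res_H [c]`.
-/

set_option autoImplicit false
set_option linter.unusedSectionVars false

open CategoryTheory groupCohomology Rep Limits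

universe u

namespace Fermat.Agent.S55.H295

open Fermat.Agent.S55.H783

noncomputable section

variable (k G : Type u) [CommRing k] [Group G] [Fintype G]

open scoped Classical in
/-- The indicator function of `1 : G`. -/
def augδ : G → k := fun x => if x = 1 then 1 else 0

lemma augδ_apply_one : augδ k G 1 = 1 := by simp [augδ]

lemma sum_augδ : ∑ x : G, augδ k G x = 1 := by
  classical
  simp [augδ]

lemma sum_funRho_augδ (g : G) : ∑ x : G, funRho k G k g (augδ k G) x = 1 := by
  have := augLin_funRho k G g (augδ k G)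
  rw [augLin_apply, augLin_apply, sum_augδ] at this
  exact this

/-- The canonical 1-cocycle `u : G → I`, `u(g) = g δ₁ - δ₁`. -/
def augu (g : G) : augIsub k G :=
  ⟨funRho k G k g (augδ k G) - augδ k G, by
    rw [mem_augIsub]
    simp only [Pi.sub_apply, Finset.sum_sub_distrib]
    rw [sum_funRho_augδ, sum_augδ, sub_self]⟩

lemma augu_coe (g : G) : (augu k G g).1 = funRho k G k g (augδ k G) - augδ k G := rfl

variable {k G}

section Beta

variable {C : Rep.{u} k G}

lemma splitβ_augδ (c : G × G → C.V) (g : G) : splitβ c g (augδ k G) = c (g, 1) := by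
  classical
  rw [splitβ_apply]
  rw [Finset.sum_eq_single (1 : G)]
  · simp [augδ]
  · intro x _ hx
    simp [augδ, hx]
  · intro h
    exact absurd (Finset.mem_univ _) h

lemma splitβ_funRho_augδ (c : G × G → C.V) (g h : G) :
    splitβ c g (funRho k G k h (augδ k G)) = c (g, h) := by
  classical
  rw [splitβ_apply]
  rw [Finset.sum_eq_single (h⁻¹ : G)]
  · simp [augδ]
  · intro x _ hx
    have : x * h ≠ 1 := fun hxh => hx (eq_inv_of_mul_eq_one_left hxh)
    simp [augδ, this]
  · intro h'
    exact absurd (Finset.mem_univ _) h'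

lemma splitβ_augu (c : G × G → C.V) (g h : G) :
    splitβ c g (augu k G h).1 = c (g, h) - c (g, 1) := by
  rw [augu_coe, map_sub, splitβ_funRho_augδ, splitβ_augδ]

end Beta

section Sub

variable (H : Subgroup G)

/-- The augmentation sequence restricted to `H`. -/
abbrev augSESres : ShortComplex (Rep.{u} k H) := (augSES k G).map (resFunctor H.subtype)

lemma augSESres_shortExact : (augSESres (k := k) H).ShortExact :=
  (Rep.shortExact_res H.subtype).2 (augSES_shortExact k G)

/-- `H²(H, I) = 0` as soon as `H¹(H, k) = 0`. -/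
lemma isZero_H2_augI (hk : IsZero (groupCohomology (res H.subtype (Rep.trivial k G k)) 1)) :
    IsZero (groupCohomology (res H.subtype (augI k G)) 2) :=
  isZero_H_left (augSESres_shortExact H) 1 hk (isZero_res_funRep H k 1)

/-- The canonical cocycle restricted to `H`. -/
def auguH : cocycles₁ (res H.subtype (augI k G)) :=
  ⟨fun h => augu k G (h : G), by
    rw [mem_cocycles₁_iff]
    intro g h
    apply Subtype.ext
    funext x
    change (augu k G ((g : G) * (h : G))).1 x =
      (augu k G (h : G)).1 (x * (g : G)) + (augu k G (g : G)).1 x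
    simp only [augu_coe, Pi.sub_apply, funRho_apply, mul_assoc]
    ring⟩

lemma auguH_apply (h : H) : (auguH (k := k) H) h = augu k G (h : G) := rfl

/-- Every 1-cocycle `H → I` is cohomologous to a multiple of the canonical cocycle. -/
lemma exists_cohomologous_augu (z : cocycles₁ (res H.subtype (augI k G))) :
    ∃ r : k, H1π (res H.subtype (augI k G)) z = r • H1π (res H.subtype (augI k G)) (auguH H) := by
  -- push `z` to `P`, where it is a coboundary
  have hz := (mem_cocycles₁_iff (A := res H.subtype (augI k G)) z).1 z.2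
  let zP : H → (G → k) := fun h => (z h).1
  have hzP : zP ∈ cocycles₁ (res H.subtype (augP k G)) := by
    rw [mem_cocycles₁_iff]
    intro g h
    exact congrArg Subtype.val (hz g h)
  have h0 : H1π (res H.subtype (augP k G)) ⟨zP, hzP⟩ = 0 :=
    (ModuleCat.subsingleton_of_isZero (isZero_res_funRep H k 0)).elim _ _
  rw [H1π_eq_zero_iff] at h0
  obtain ⟨ψ, hψ⟩ := h0
  have hψ' : ∀ (h : H) (x : G), ψ (x * (h : G)) - ψ x = (z h).1 x := fun h x =>
    congrFun (congrFun hψ h) x
  let r : k := ∑ x : G, ψ x
  refine ⟨r, ?_⟩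
  have hψ₀ : ψ - r • augδ k G ∈ augIsub k G := by
    rw [mem_augIsub]
    simp only [Pi.sub_apply, Pi.smul_apply, smul_eq_mul, Finset.sum_sub_distrib,
      ← Finset.mul_sum, sum_augδ, mul_one]
    exact sub_self r
  rw [← map_smul, H1π_eq_iff]
  refine ⟨(⟨ψ - r • augδ k G, hψ₀⟩ : augIsub k G), ?_⟩
  funext h
  apply Subtype.ext
  funext x
  change (ψ (x * (h : G)) - r • augδ k G (x * (h : G))) - (ψ x - r • augδ k G x) =
    (z h).1 x - r • (augδ k G (x * (h : G)) - augδ k G x)
  rw [← hψ' h x]
  simp only [smul_eq_mul]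
  ring

end Sub

section Delta

variable {C : Rep.{u} k G} (c : cocycles₂ C) (H : Subgroup G)

/-- The splitting sequence restricted to `H`. -/
abbrev splitSESres : ShortComplex (Rep.{u} k H) := (splitSES c).map (resFunctor H.subtype)

lemma splitSESres_shortExact : (splitSESres c H).ShortExact :=
  (Rep.shortExact_res H.subtype).2 (splitSES_shortExact c)

/-- The 2-cochain `(g, h) ↦ β_g(z h)` attached to a 1-cochain `z : H → I`. -/
def splitCochain (z : H → augIsub k G) : H × H → C.V :=
  fun p => splitβ (c : G × G → C.V) (p.1 : G) (z p.2).1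

lemma splitCochain_apply (z : H → augIsub k G) (g h : H) :
    splitCochain c H z (g, h) = splitβ (c : G × G → C.V) (g : G) (z h).1 := rfl

lemma split_comp_eq_d₁₂ (z : cocycles₁ (res H.subtype (augI k G))) :
    (splitSESres c H).f.hom ∘ splitCochain c H z =
      d₁₂ (splitSESres c H).X₂ (fun h => ((0 : C.V), z h)) := by
  have hz := (mem_cocycles₁_iff (A := res H.subtype (augI k G)) z).1 z.2
  funext p
  obtain ⟨g, h⟩ := p
  change ((splitCochain c H z (g, h), (0 : augIsub k G)) : C.V × augIsub k G) =
    splitRho c (g : G) ((0 : C.V), z h) - ((0 : C.V), z (g * h)) + ((0 : C.V), z g)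
  rw [splitRho_apply, splitCochain_apply]
  refine Prod.ext ?_ ?_
  · simp
  · change (0 : augIsub k G) = augIrho k G (g : G) (z h) - z (g * h) + z g
    rw [hz g h]
    change (0 : augIsub k G) = augIrho k G (g : G) (z h) - (augIrho k G (g : G) (z h) + z g) + z g
    abel

/-- The connecting homomorphism of the splitting sequence on a 1-cocycle `z : H → I`. -/
theorem δ_split (z : cocycles₁ (res H.subtype (augI k G))) :
    δ (splitSESres_shortExact c H) 1 2 rfl (H1π _ z) =
      H2π (res H.subtype C) ⟨splitCochain c H z,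
        mem_cocycles₂_of_comp_eq_d₁₂ (splitSESres_shortExact c H) (split_comp_eq_d₁₂ c H z)⟩ :=
  δ₁_apply (splitSESres_shortExact c H) z (fun h => ((0 : C.V), z h)) rfl
    (splitCochain c H z) (split_comp_eq_d₁₂ c H z)

/-- **Key computation**: the connecting homomorphism sends the canonical class to `res_H [c]`. -/
theorem δ_split_auguH :
    δ (splitSESres_shortExact c H) 1 2 rfl (H1π _ (auguH H)) =
      (groupCohomology.map H.subtype (𝟙 (res H.subtype C)) 2).hom (H2π C c) := by
  rw [δ_split, H2π_comp_map_apply]
  refine (H2π_eq_iff (A := res H.subtype C) _ _).2 ⟨fun _ => -(c : G × G → C.V) (1, 1), ?_⟩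
  funext p
  obtain ⟨g, h⟩ := p
  change C.ρ (g : G) (-(c : G × G → C.V) (1, 1)) - (-(c : G × G → C.V) (1, 1)) +
      (-(c : G × G → C.V) (1, 1)) =
    splitβ (c : G × G → C.V) (g : G) (augu k G (h : G)).1 - (c : G × G → C.V) ((g : G), (h : G))
  rw [splitβ_augu, cocycles₂_map_one_snd c (g : G), map_neg]
  abel

end Delta

end

end Fermat.Agent.S55.H295
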