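import Fermat.Agent.S55.H295.Basic
import Fermat.Agent.S55.H783.Shift

/-!
# The splitting module of a 2-cocycle: definitions

Let `G` be a finite group, `k` a commutative ring, `C : Rep k G` and `c ∈ Z²(G, C)`.

* `augP k G = Fun(G, k)` with `G` acting by right translation, `augε : augP ⟶ k` the sum map,
  `augI k G = ker augε` ("augmentation ideal"), and the short exact sequence
  `augSES : 0 → augI → augP → k → 0`;
* `splitRep c : Rep k G` on `C × augI`, with the twisted action
  `g • (a, φ) = (g a + ∑ₓ φ(x) • c(g, x⁻¹), g φ)`, and the short exact sequence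
  `splitSES c : 0 → C → splitRep c → augI → 0`.

No normalisation of the cocycle is needed.
-/

set_option autoImplicit false
set_option linter.unusedSectionVars false

open CategoryTheory groupCohomology Rep Limits

universe u

namespace Fermat.Agent.S55.H295

open Fermat.Agent.S55.H783

noncomputable section

variable (k G : Type u) [CommRing k] [Group G] [Fintype G]

/-- The sum map `Fun(G, k) → k`. -/
def augLin : (G → k) →ₗ[k] k where
  toFun φ := ∑ x : G, φ x
  map_add' φ ψ := by simp [Finset.sum_add_distrib]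
  map_smul' r φ := by simp [Finset.mul_sum]

lemma augLin_apply (φ : G → k) : augLin k G φ = ∑ x : G, φ x := rfl

lemma augLin_funRho (g : G) (φ : G → k) : augLin k G (funRho k G k g φ) = augLin k G φ := by
  rw [augLin_apply, augLin_apply]
  exact Fintype.sum_equiv (Equiv.mulRight g) _ _ fun x => rfl

/-- `P = Fun(G, k)` with right translation. -/
abbrev augP : Rep.{u} k G := funRep k G k

/-- The augmentation `P ⟶ k`. -/
def augε : augP k G ⟶ Rep.trivial k G k :=
  Rep.ofHom (ρ := funRho k G k) (σ := (Rep.trivial k G k).ρ) ⟨augLin k G, fun g => by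
    apply LinearMap.ext
    intro φ
    exact augLin_funRho k G g φ⟩

lemma augε_apply (φ : G → k) : (augε k G).hom φ = ∑ x : G, φ x := rfl

/-- The underlying submodule of the augmentation ideal. -/
def augIsub : Submodule k (G → k) := LinearMap.ker (augLin k G)

lemma mem_augIsub (φ : G → k) : φ ∈ augIsub k G ↔ ∑ x : G, φ x = 0 := LinearMap.mem_ker

lemma augIsub_le_comap (g : G) : augIsub k G ≤ (augIsub k G).comap (funRho k G k g) := by
  intro φ hφ
  rw [Submodule.mem_comap, augIsub, LinearMap.mem_ker, augLin_funRho]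
  exact hφ

/-- The action of `G` on the augmentation ideal. -/
abbrev augIrho : Representation k G (augIsub k G) :=
  Representation.subrepresentation (funRho k G k) (augIsub k G) (augIsub_le_comap k G)

/-- The augmentation ideal `I = ker (P ⟶ k)`. -/
abbrev augI : Rep.{u} k G := Rep.of (augIrho k G)

lemma augIrho_apply_coe (g : G) (φ : augIsub k G) (x : G) :
    (augIrho k G g φ).1 x = φ.1 (x * g) := rfl

/-- The inclusion `I ⟶ P`. -/
def augj : augI k G ⟶ augP k G :=
  Rep.ofHom (ρ := augIrho k G) (σ := funRho k G k) ⟨(augIsub k G).subtype, fun _ => rfl⟩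

lemma augj_apply (φ : augIsub k G) : (augj k G).hom φ = φ.1 := rfl

lemma augj_comp_augε : augj k G ≫ augε k G = 0 := by
  apply Rep.hom_ext
  apply Representation.IntertwiningMap.ext
  apply LinearMap.ext
  intro φ
  exact φ.2

/-- The augmentation sequence `0 → I → P → k → 0`. -/
def augSES : ShortComplex (Rep.{u} k G) :=
  ShortComplex.mk (augj k G) (augε k G) (augj_comp_augε k G)

lemma augSES_shortExact : (augSES k G).ShortExact := by
  classical
  apply rep_shortExact_of
  · intro φ ψ h
    exact Subtype.ext h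
  · intro φ hφ
    exact ⟨⟨φ, hφ⟩, rfl⟩
  · intro r
    refine ⟨Pi.single 1 r, ?_⟩
    change ∑ x : G, (Pi.single 1 r : G → k) x = r
    rw [Finset.sum_pi_single']
    simp

variable {k G}

section Split

variable {C : Rep.{u} k G}

/-- The twisting map `β_g(φ) = ∑ₓ φ(x) • c(g, x⁻¹)`. -/
def splitβ (c : G × G → C.V) (g : G) : (G → k) →ₗ[k] C.V where
  toFun φ := ∑ x : G, φ x • c (g, x⁻¹)
  map_add' φ ψ := by simp [add_smul, Finset.sum_add_distrib]
  map_smul' r φ := by simp [mul_smul, Finset.smul_sum]

lemma splitβ_apply (c : G × G → C.V) (g : G) (φ : G → k) :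
    splitβ c g φ = ∑ x : G, φ x • c (g, x⁻¹) := rfl

/-- `β₁` vanishes on the augmentation ideal. -/
lemma splitβ_one (c : cocycles₂ C) (φ : G → k) (hφ : ∑ x : G, φ x = 0) :
    splitβ (c : G × G → C.V) 1 φ = 0 := by
  rw [splitβ_apply]
  have h : ∀ x : G, φ x • (c : G × G → C.V) (1, x⁻¹) = φ x • (c : G × G → C.V) (1, 1) :=
    fun x => by rw [cocycles₂_map_one_fst c x⁻¹]
  rw [Finset.sum_congr rfl (fun x _ => h x), ← Finset.sum_smul, hφ, zero_smul]

/-- The cocycle relation for `β` on the augmentation ideal. -/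
lemma splitβ_mul (c : cocycles₂ C) (g h : G) (φ : G → k) (hφ : ∑ x : G, φ x = 0) :
    splitβ (c : G × G → C.V) (g * h) φ =
      C.ρ g (splitβ (c : G × G → C.V) h φ) + splitβ (c : G × G → C.V) g (funRho k G k h φ) := by
  have hc := (mem_cocycles₂_iff (c : G × G → C.V)).1 c.2
  simp only [splitβ_apply, map_sum, map_smul]
  -- reindex the last sum by `x ↦ x * h⁻¹`
  have h3 : ∑ x : G, (funRho k G k h φ) x • (c : G × G → C.V) (g, x⁻¹) =
      ∑ y : G, φ y • (c : G × G → C.V) (g, h * y⁻¹) := by
    refine Fintype.sum_equiv (Equiv.mulRight h) _ _ fun x => ?_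
    change φ (x * h) • (c : G × G → C.V) (g, x⁻¹) = φ (x * h) • (c : G × G → C.V) (g, h * (x * h)⁻¹)
    rw [mul_inv_rev, mul_inv_cancel_left]
  rw [h3, ← Finset.sum_add_distrib]
  have h4 : ∀ x : G, φ x • (c : G × G → C.V) (g * h, x⁻¹) =
      (φ x • C.ρ g ((c : G × G → C.V) (h, x⁻¹)) + φ x • (c : G × G → C.V) (g, h * x⁻¹)) -
        φ x • (c : G × G → C.V) (g, h) := by
    intro x
    rw [← smul_add, ← smul_sub, ← hc g h x⁻¹, add_sub_cancel_right]
  rw [Finset.sum_congr rfl (fun x _ => h4 x), Finset.sum_sub_distrib, ← Finset.sum_smul, hφ,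
    zero_smul, sub_zero]

/-- The underlying linear map of the action of `g` on the splitting module. -/
def splitLin (c : G × G → C.V) (g : G) : (C.V × augIsub k G) →ₗ[k] (C.V × augIsub k G) :=
  LinearMap.prod
    ((C.ρ g).coprod ((splitβ c g).comp (augIsub k G).subtype))
    ((augIrho k G g).comp (LinearMap.snd k C.V (augIsub k G)))

lemma splitLin_apply (c : G × G → C.V) (g : G) (p : C.V × augIsub k G) :
    splitLin c g p = (C.ρ g p.1 + splitβ c g p.2.1, augIrho k G g p.2) := rfl

/-- The action of `G` on the splitting module `C × I`. -/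
def splitRho (c : cocycles₂ C) : Representation k G (C.V × augIsub k G) where
  toFun g := splitLin (c : G × G → C.V) g
  map_one' := by
    apply LinearMap.ext
    intro p
    rw [splitLin_apply, splitβ_one c p.2.1 ((mem_augIsub k G _).1 p.2.2)]
    refine Prod.ext ?_ ?_
    · simp
    · change augIrho k G 1 p.2 = p.2
      rw [map_one]
      rfl
  map_mul' g h := by
    apply LinearMap.ext
    intro p
    rw [Module.End.mul_apply, splitLin_apply, splitLin_apply, splitLin_apply,
      splitβ_mul c g h p.2.1 ((mem_augIsub k G _).1 p.2.2)]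
    refine Prod.ext ?_ ?_
    · simp only [map_mul, Module.End.mul_apply, map_add]
      rw [add_assoc]
      rfl
    · simp only [map_mul, Module.End.mul_apply]

lemma splitRho_apply (c : cocycles₂ C) (g : G) (p : C.V × augIsub k G) :
    splitRho c g p = (C.ρ g p.1 + splitβ (c : G × G → C.V) g p.2.1, augIrho k G g p.2) := rfl

/-- The splitting module of the 2-cocycle `c`. -/
abbrev splitRep (c : cocycles₂ C) : Rep.{u} k G := Rep.of (splitRho c)

/-- The inclusion `C ⟶ C(c)`. -/
def spliti (c : cocycles₂ C) : C ⟶ splitRep c :=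
  Rep.ofHom (ρ := C.ρ) (σ := splitRho c) ⟨LinearMap.inl k C.V (augIsub k G), fun g => by
    apply LinearMap.ext
    intro a
    change ((C.ρ g a, (0 : augIsub k G)) : C.V × augIsub k G) = splitRho c g (a, 0)
    rw [splitRho_apply]
    simp⟩

lemma spliti_apply (c : cocycles₂ C) (a : C.V) : (spliti c).hom a = (a, 0) := rfl

/-- The projection `C(c) ⟶ I`. -/
def splitπ (c : cocycles₂ C) : splitRep c ⟶ augI k G :=
  Rep.ofHom (ρ := splitRho c) (σ := augIrho k G) ⟨LinearMap.snd k C.V (augIsub k G),
    fun _ => rfl⟩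

lemma splitπ_apply (c : cocycles₂ C) (p : C.V × augIsub k G) : (splitπ c).hom p = p.2 := rfl

lemma spliti_comp_splitπ (c : cocycles₂ C) : spliti c ≫ splitπ c = 0 := by
  apply Rep.hom_ext
  apply Representation.IntertwiningMap.ext
  apply LinearMap.ext
  intro a
  rfl

/-- The sequence `0 → C → C(c) → I → 0`. -/
def splitSES (c : cocycles₂ C) : ShortComplex (Rep.{u} k G) :=
  ShortComplex.mk (spliti c) (splitπ c) (spliti_comp_splitπ c)

lemma splitSES_shortExact (c : cocycles₂ C) : (splitSES c).ShortExact := by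
  apply rep_shortExact_of
  · intro a b h
    exact congrArg Prod.fst h
  · intro p hp
    refine ⟨p.1, ?_⟩
    change ((p.1, (0 : augIsub k G)) : C.V × augIsub k G) = p
    have hp' : p.2 = 0 := hp
    exact Prod.ext rfl hp'.symm
  · intro φ
    exact ⟨(0, φ), rfl⟩

end Split

end

end Fermat.Agent.S55.H295
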