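import Fermat.Agent.S55.H295.SplitCoh
import Fermat.Agent.S55.H295.TwinVanishing

/-!
# The splitting module of a class module is cohomologically trivial

Let `c ∈ Z²(G, C)`.  If for a subgroup `H ≤ G`

* `H¹(H, C) = 0`, `H¹(H, k) = 0`,
* `H²(H, C)` is generated by `ρ = res_H [c]`, and `r • ρ = 0` implies `|H| ∣ r`,

then `H¹(H, C(c)) = H²(H, C(c)) = 0` (`isZero_H1_splitRep`, `isZero_H2_splitRep`).
-/

set_option autoImplicit false
set_option linter.unusedSectionVars false

open CategoryTheory groupCohomology Rep Limits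

universe u

namespace Fermat.Agent.S55.H295

open Fermat.Agent.S55.H783

noncomputable section

variable {k G : Type u} [CommRing k] [Group G] [Fintype G]
variable {C : Rep.{u} k G} (c : cocycles₂ C) (H : Subgroup G)

/-- The restricted fundamental class `res_H [c]`. -/
abbrev resClass : groupCohomology (res H.subtype C) 2 :=
  (groupCohomology.map H.subtype (𝟙 (res H.subtype C)) 2).hom (H2π C c)

/-- The connecting homomorphism `H¹(H, I) ⟶ H²(H, C)`. -/
abbrev splitδ : groupCohomology (res H.subtype (augI k G)) 1 ⟶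
    groupCohomology (res H.subtype C) 2 :=
  δ (splitSESres_shortExact c H) 1 2 rfl

lemma splitδ_surjective
    (hgen : ∀ x : groupCohomology (res H.subtype C) 2, ∃ r : k, x = r • resClass c H) :
    Function.Surjective (splitδ c H).hom := by
  intro x
  obtain ⟨r, rfl⟩ := hgen x
  refine ⟨r • H1π _ (auguH H), ?_⟩
  rw [map_smul]
  congr 1
  exact δ_split_auguH c H

lemma splitδ_injective
    (hann : ∀ r : k, r • resClass c H = 0 → ∃ d : k, r = (Nat.card H : k) * d) :
    Function.Injective (splitδ c H).hom := by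
  rw [injective_iff_map_eq_zero]
  intro y hy
  induction y using H1_induction_on with
  | h z =>
    obtain ⟨r, hr⟩ := exists_cohomologous_augu H z
    rw [hr] at hy ⊢
    rw [map_smul] at hy
    have h2 : (splitδ c H).hom (H1π _ (auguH H)) = resClass c H := δ_split_auguH c H
    rw [h2] at hy
    obtain ⟨d, rfl⟩ := hann r hy
    rw [mul_comm, mul_smul, Nat.cast_smul_eq_nsmul,
      card_nsmul_eq_zero (res H.subtype (augI k G)) 0, smul_zero]

/-- `H¹(H, C(c)) = 0`. -/
theorem isZero_H1_splitRep
    (h1 : IsZero (groupCohomology (res H.subtype C) 1))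
    (hann : ∀ r : k, r • resClass c H = 0 → ∃ d : k, r = (Nat.card H : k) * d) :
    IsZero (groupCohomology (res H.subtype (splitRep c)) 1) := by
  have hX := splitSESres_shortExact c H
  have hcomp : (mapShortComplex₃ hX (i := 1) rfl).f ≫ splitδ c H = 0 :=
    (mapShortComplex₃ hX (i := 1) rfl).zero
  have hmono : Mono (splitδ c H) :=
    (ModuleCat.mono_iff_injective _).2 (splitδ_injective c H hann)
  have hg : (mapShortComplex₃ hX (i := 1) rfl).f = 0 :=
    @zero_of_comp_mono _ _ _ _ _ _ _ (splitδ c H) hmono hcomp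
  refine (mapShortComplex₂_exact hX 1).isZero_of_both_zeros (h1.eq_zero_of_src _) ?_
  exact hg

/-- `H²(H, C(c)) = 0`. -/
theorem isZero_H2_splitRep
    (hk : IsZero (groupCohomology (res H.subtype (Rep.trivial k G k)) 1))
    (hgen : ∀ x : groupCohomology (res H.subtype C) 2, ∃ r : k, x = r • resClass c H) :
    IsZero (groupCohomology (res H.subtype (splitRep c)) 2) := by
  have hX := splitSESres_shortExact c H
  have hcomp : splitδ c H ≫ (mapShortComplex₁ hX (i := 1) rfl).g = 0 :=
    (mapShortComplex₁ hX (i := 1) rfl).zero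
  have hepi : Epi (splitδ c H) :=
    (ModuleCat.epi_iff_surjective _).2 (splitδ_surjective c H hgen)
  have hf : (mapShortComplex₁ hX (i := 1) rfl).g = 0 :=
    @zero_of_epi_comp _ _ _ _ _ _ (splitδ c H) _ hepi hcomp
  refine (mapShortComplex₂_exact hX 2).isZero_of_both_zeros ?_
    ((isZero_H2_augI H hk).eq_zero_of_tgt _)
  exact hf

end

end Fermat.Agent.S55.H295
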